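import Mathlib.GroupTheory.Index
import Mathlib.Tactic.LinearCombination
import Mathlib.Tactic.Ring

/-!
# Indices of images and power index by an open subgroup

The index of the image of a homomorphism, computed on a subgroup of finite index.
-/

set_option autoImplicit false

namespace Fermat.Agent.CFT.Local

variable {A B : Type*} [CommGroup A] [CommGroup B]

/-- `[A : V] = [f A : f V] · [ker f : V ∩ ker f]`. -/
theorem index_eq_relIndex_map_mul (f : A →* B) (V : Subgroup A) :
    V.index = (V.map f).relIndex f.range * (V ⊓ f.ker).relIndex f.ker := by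
  rw [MonoidHom.range_eq_map, Subgroup.relIndex_map_map, top_sup_eq, Subgroup.relIndex_top_right,
    mul_comm, ← Subgroup.relIndex_mul_index (le_sup_left : V ≤ V ⊔ f.ker),
    Subgroup.relIndex_sup_left, Subgroup.inf_relIndex_right]

/-- The index formula inside a subgroup. -/
theorem relIndex_eq_map_mul (f : A →* B) {V C : Subgroup A} (h : V ≤ C) :
    V.relIndex C = (V.map f).relIndex (C.map f) * (V ⊓ f.ker).relIndex (C ⊓ f.ker) := by
  have hC : ((f.comp C.subtype).ker).map C.subtype = C ⊓ f.ker := by
    ext x
    simp [MonoidHom.mem_ker, Subgroup.mem_map, and_comm]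
  have hV : ((V.subgroupOf C) ⊓ (f.comp C.subtype).ker).map C.subtype = V ⊓ f.ker := by
    ext x
    simp only [Subgroup.mem_map, Subgroup.mem_inf, Subgroup.mem_subgroupOf, MonoidHom.mem_ker,
      MonoidHom.comp_apply, Subgroup.coe_subtype]
    exact ⟨by rintro ⟨y, hy, rfl⟩; exact hy, fun hx => ⟨⟨x, h hx.1⟩, hx, rfl⟩⟩
  have := index_eq_relIndex_map_mul (f.comp C.subtype) (V.subgroupOf C)
  rw [← Subgroup.relIndex_map_map_of_injective _ (f.comp C.subtype).ker C.subtype_injective,
    hC, hV, MonoidHom.range_comp, Subgroup.range_subtype, ← Subgroup.map_map,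
    Subgroup.subgroupOf_map_subtype, inf_eq_left.mpr h] at this
  exact this

end Fermat.Agent.CFT.Local
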