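import Fermat.Agent.CFT.Local.Deep

/-!
# Cohomologically trivial deep units

For `E/ℚ_[q]` finite normal there is a normal basis with structure constants divisible by `q`; on
the corresponding deep units, for every subgroup `H` of the Galois group, invariants are norms and
elements of norm `1` are products of `h b / b`.
-/

set_option autoImplicit false

noncomputable section

namespace Fermat.Agent.CFT.Local

open Module

variable {q : ℕ} [Fact q.Prime] {E : IntermediateField ℚ_[q] (PadicAlgCl q)}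

/-- An equivariant good basis indexed by the Galois group. -/
structure NormalLattice (E : IntermediateField ℚ_[q] (PadicAlgCl q)) where
  basis : Basis (E ≃ₐ[ℚ_[q]] E) ℚ_[q] E
  good : GoodBasis basis
  map_basis : ∀ σ τ : E ≃ₐ[ℚ_[q]] E, σ (basis τ) = basis (σ * τ)

variable [FiniteDimensional ℚ_[q] E]

theorem exists_normalLattice [Normal ℚ_[q] E] : Nonempty (NormalLattice E) := by
  have : IsGalois ℚ_[q] E := ⟨⟩
  obtain ⟨c, hc⟩ := exists_goodBasis_smul (IsGalois.normalBasis ℚ_[q] E)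
  refine ⟨⟨_, hc, fun σ τ => ?_⟩⟩
  simp only [Basis.unitsSMul_apply, Units.smul_def]
  rw [Algebra.smul_def, map_mul, AlgEquiv.commutes, ← Algebra.smul_def]
  conv_rhs => rw [IsGalois.normalBasis_apply]
  rw [IsGalois.normalBasis_apply τ]
  rfl

namespace NormalLattice

variable (Λ : NormalLattice E)

theorem repr_map (σ τ : E ≃ₐ[ℚ_[q]] E) (x : E) :
    Λ.basis.repr (σ x) τ = Λ.basis.repr x (σ⁻¹ * τ) := by
  classical
  conv_lhs => rw [← Λ.basis.sum_repr x]
  have hs : ∀ (c : ℚ_[q]) (y : E), σ (c • y) = c • σ y := fun c y => by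
    rw [Algebra.smul_def, map_mul, AlgEquiv.commutes, ← Algebra.smul_def]
  simp only [map_sum, hs, map_smul, Λ.map_basis, Basis.repr_self, Finsupp.coe_finsetSum,
    Finset.sum_apply, Finsupp.smul_apply, smul_eq_mul]
  rw [Finset.sum_eq_single (σ⁻¹ * τ)]
  · rw [mul_inv_cancel_left, Finsupp.single_eq_same, mul_one]
  · intro ρ _ hρ
    rw [Finsupp.single_eq_of_ne (fun h => hρ (by rw [h, inv_mul_cancel_left])), mul_zero]
  · intro h
    exact absurd (Finset.mem_univ _) h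

theorem map_mem_lat {σ : E ≃ₐ[ℚ_[q]] E} {k : ℕ} {x : E} (hx : x ∈ lat Λ.basis k) :
    σ x ∈ lat Λ.basis k := fun τ => by rw [repr_map]; exact hx _

theorem smul_mem_deepUnits {σ : E ≃ₐ[ℚ_[q]] E} {k : ℕ} {x : Eˣ}
    (hx : x ∈ deepUnits Λ.good k) : σ • x ∈ deepUnits Λ.good k := by
  rw [mem_deepUnits] at hx ⊢
  show σ (x : E) - 1 ∈ _
  rw [← map_one σ, ← map_sub]
  exact Λ.map_mem_lat hx

variable (H : Subgroup (E ≃ₐ[ℚ_[q]] E))

/-- The chosen representative of the coset `H g`. -/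
def cosetRep (g : E ≃ₐ[ℚ_[q]] E) : E ≃ₐ[ℚ_[q]] E :=
  (Quotient.mk (QuotientGroup.rightRel H) g).out

omit [FiniteDimensional ℚ_[q] E] in
theorem cosetRep_spec (g : E ≃ₐ[ℚ_[q]] E) : g * (cosetRep H g)⁻¹ ∈ H :=
  QuotientGroup.rightRel_apply.mp (Quotient.exact (Quotient.out_eq _))

omit [FiniteDimensional ℚ_[q] E] in
theorem cosetRep_mul (h : H) (g : E ≃ₐ[ℚ_[q]] E) :
    cosetRep H ((h : E ≃ₐ[ℚ_[q]] E) * g) = cosetRep H g := by
  unfold cosetRep
  congr 1
  refine Quotient.sound (QuotientGroup.rightRel_apply.mpr ?_)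
  rw [show g * ((h : E ≃ₐ[ℚ_[q]] E) * g)⁻¹ = (h : E ≃ₐ[ℚ_[q]] E)⁻¹ by group]
  exact H.inv_mem h.2

open Classical in
/-- The projection to the chosen representatives. -/
def proj (x : E) : E :=
  ∑ g, (if cosetRep H g = g then Λ.basis.repr x g else 0) • Λ.basis g

open Classical in
theorem repr_proj (x : E) (g : E ≃ₐ[ℚ_[q]] E) :
    Λ.basis.repr (proj Λ H x) g = if cosetRep H g = g then Λ.basis.repr x g else 0 := by
  rw [proj, Basis.repr_sum_self]

theorem proj_mem {k : ℕ} {x : E} (hx : x ∈ lat Λ.basis k) : proj Λ H x ∈ lat Λ.basis k := by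
  classical
  intro g
  rw [repr_proj]
  split_ifs
  · exact hx g
  · simp [qInv_pos.le]

theorem proj_sum {κ : Type*} (s : Finset κ) (f : κ → E) :
    proj Λ H (∑ i ∈ s, f i) = ∑ i ∈ s, proj Λ H (f i) := by
  classical
  refine Λ.basis.repr.injective (Finsupp.ext fun g => ?_)
  simp only [map_sum, Finsupp.coe_finsetSum, Finset.sum_apply, repr_proj]
  split_ifs with h
  · rfl
  · simp

theorem sum_conj_proj [Fintype H] (x : E) :
    ∑ h : H, (h : E ≃ₐ[ℚ_[q]] E) (proj Λ H ((h : E ≃ₐ[ℚ_[q]] E)⁻¹ x)) = x := by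
  classical
  refine Λ.basis.repr.injective (Finsupp.ext fun g => ?_)
  simp only [map_sum, Finsupp.coe_finsetSum, Finset.sum_apply, repr_map, repr_proj, inv_inv,
    mul_inv_cancel_left]
  rw [Finset.sum_eq_single ⟨g * (cosetRep H g)⁻¹, cosetRep_spec H g⟩]
  · rw [if_pos]
    have hg : ((⟨g * (cosetRep H g)⁻¹, cosetRep_spec H g⟩ : H) : E ≃ₐ[ℚ_[q]] E)⁻¹ * g
        = cosetRep H g := by
      show (g * (cosetRep H g)⁻¹)⁻¹ * g = cosetRep H g
      group
    rw [← Subgroup.coe_inv, cosetRep_mul, Subgroup.coe_inv, hg]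
  · intro h _ hne
    rw [if_neg]
    intro he
    refine hne (Subtype.ext ?_)
    show (h : E ≃ₐ[ℚ_[q]] E) = g * (cosetRep H g)⁻¹
    rw [← Subgroup.coe_inv, cosetRep_mul] at he
    rw [he, Subgroup.coe_inv]
    group
  · intro h
    exact absurd (Finset.mem_univ _) h

/-- The norm of `H` on units. -/
def normHom [Fintype H] : Eˣ →* Eˣ where
  toFun x := ∏ h : H, (h : E ≃ₐ[ℚ_[q]] E) • x
  map_one' := by simp
  map_mul' x y := by simp [smul_mul', Finset.prod_mul_distrib]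

omit [FiniteDimensional ℚ_[q] ↥E] in
theorem normHom_smul [Fintype H] (h : H) (x : Eˣ) :
    normHom H ((h : E ≃ₐ[ℚ_[q]] E) • x) = normHom H x := by
  show ∏ i : H, _ = ∏ i : H, _
  simp only [smul_smul]
  exact Fintype.prod_equiv (Equiv.mulRight h) _ _ fun i => rfl

omit [FiniteDimensional ℚ_[q] ↥E] in
theorem smul_normHom [Fintype H] (h : H) (x : Eˣ) :
    (h : E ≃ₐ[ℚ_[q]] E) • normHom H x = normHom H x := by
  show _ • (∏ i : H, _) = ∏ i : H, _
  rw [Finset.smul_prod']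
  simp only [smul_smul]
  exact Fintype.prod_equiv (Equiv.mulLeft h) _ _ fun i => rfl

theorem normHom_mem_deepUnits [Fintype H] {k : ℕ} {x : Eˣ} (hx : x ∈ deepUnits Λ.good k) :
    normHom H x ∈ deepUnits Λ.good k :=
  Subgroup.prod_mem _ fun _ _ => Λ.smul_mem_deepUnits hx

/-- `(b_h) ↦ ∏ h b_h / b_h`. -/
def augHom [Fintype H] : (H → Eˣ) →* Eˣ where
  toFun f := ∏ h : H, ((h : E ≃ₐ[ℚ_[q]] E) • f h) / f h
  map_one' := by simp
  map_mul' f g := by
    rw [← Finset.prod_mul_distrib]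
    refine Finset.prod_congr rfl fun h _ => ?_
    rw [Pi.mul_apply, smul_mul', div_mul_div_comm]

/-- Invariant deep units are norms of deep units. -/
theorem exists_normHom_eq [Fintype H] {x : Eˣ} (hx : x ∈ deepUnits Λ.good 0)
    (hfix : ∀ h : H, (h : E ≃ₐ[ℚ_[q]] E) • x = x) :
    ∃ y ∈ deepUnits Λ.good 0, normHom H y = x := by
  classical
  let C : Subgroup Eˣ :=
    { carrier := {z | ∀ h : H, (h : E ≃ₐ[ℚ_[q]] E) • z = z}
      one_mem' := fun h => smul_one _
      mul_mem' := fun ha hb h => by rw [smul_mul', ha h, hb h]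
      inv_mem' := fun ha h => by rw [smul_inv', ha h] }
  let F : (Unit → Eˣ) →* Eˣ := (normHom H).comp (Pi.evalMonoidHom _ ())
  refine (exists_preimage_of_approx Λ.good F C 0
    (fun n f hf => Λ.normHom_mem_deepUnits H (hf ())) (fun k z hzC hz => ?_)
    (show x ∈ C from hfix) hx).elim fun f hf => ⟨f (), hf.1 (), hf.2⟩
  rw [add_zero] at hz
  set w := (z : E) - 1 with hw
  have hwfix : ∀ h : H, (h : E ≃ₐ[ℚ_[q]] E) w = w := fun h => by
    rw [hw, map_sub, map_one]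
    congr 1
    exact congrArg Units.val (hzC h)
  set a := proj Λ H w with ha
  have hak : a ∈ lat Λ.basis k := Λ.proj_mem H hz
  have hne := Λ.good.one_add_ne_zero hak
  refine ⟨fun _ => Units.mk0 _ hne, fun _ => by simp [mem_deepUnits, hak], ?_, ?_⟩
  · exact div_mem hzC (fun h => smul_normHom H h _)
  · refine div_mem_deepUnits Λ.good (Λ.normHom_mem_deepUnits H
      (deepUnits_anti Λ.good (Nat.zero_le k) (by simp [mem_deepUnits, hak]))) ?_
    have hsum : ∑ h : H, (h : E ≃ₐ[ℚ_[q]] E) a = w := by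
      conv_rhs => rw [← Λ.sum_conj_proj H w]
      refine Finset.sum_congr rfl fun h _ => ?_
      rw [← Subgroup.coe_inv, hwfix h⁻¹]
    obtain ⟨-, h2⟩ := Λ.good.prod_congr_mem (Finset.univ : Finset H) (k := k)
      (fun h => (h : E ≃ₐ[ℚ_[q]] E) (1 + a)) (fun h => (h : E ≃ₐ[ℚ_[q]] E) a)
      (fun h _ => by simp only [map_add, map_one, add_sub_cancel_left]; exact Λ.map_mem_lat hak)
      (fun h _ => by simp [map_add])
    rw [hsum] at h2
    have e : (z : E) - ((F fun _ => Units.mk0 _ hne : Eˣ) : E) =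
        -((∏ h : H, (h : E ≃ₐ[ℚ_[q]] E) (1 + a)) - 1 - w) := by
      show (z : E) - ((∏ h : H, (h : E ≃ₐ[ℚ_[q]] E) • Units.mk0 _ hne : Eˣ) : E) = _
      rw [Units.coe_prod, hw]
      simp only [Units.val_mk0, AlgEquiv.smul_units_def, Units.coe_map, MonoidHom.coe_coe]
      ring
    rw [add_zero, e]
    exact neg_mem h2

/-- Deep units of norm one are products of `h b / b`. -/
theorem exists_augHom_eq [Fintype H] {x : Eˣ} (hx : x ∈ deepUnits Λ.good 0)
    (hN : normHom H x = 1) :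
    ∃ f : H → Eˣ, (∀ h, f h ∈ deepUnits Λ.good 0) ∧ augHom H f = x := by
  classical
  refine exists_preimage_of_approx Λ.good (augHom H) (normHom H).ker 0
    (fun n f hf => Subgroup.prod_mem _ fun h _ => div_mem (Λ.smul_mem_deepUnits (hf h)) (hf h))
    (fun k z hzC hz => ?_) (MonoidHom.mem_ker.mpr hN) hx
  rw [add_zero] at hz
  set w := (z : E) - 1 with hw
  set r := ∑ h : H, (h : E ≃ₐ[ℚ_[q]] E) w with hr
  have hrk : r ∈ lat Λ.basis (k + 1) := by
    obtain ⟨-, h2⟩ := Λ.good.prod_congr_mem (Finset.univ : Finset H) (k := k)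
      (fun h => (h : E ≃ₐ[ℚ_[q]] E) (z : E)) (fun h => (h : E ≃ₐ[ℚ_[q]] E) w)
      (fun h _ => by
        show (h : E ≃ₐ[ℚ_[q]] E) (z : E) - 1 ∈ _
        rw [← map_one (h : E ≃ₐ[ℚ_[q]] E), ← map_sub]; exact Λ.map_mem_lat hz)
      (fun h _ => by simp [hw, map_sub])
    have e : (∏ h : H, (h : E ≃ₐ[ℚ_[q]] E) (z : E)) = 1 := by
      have := congrArg Units.val (MonoidHom.mem_ker.mp hzC)
      simpa [normHom, Units.coe_prod, AlgEquiv.smul_units_def] using this
    rw [e, sub_self, zero_sub] at h2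
    exact (neg_mem_iff).mp h2
  set w' := w - proj Λ H r with hw'
  have hw'k : w' ∈ lat Λ.basis k :=
    sub_mem hz (Λ.proj_mem H (lat_anti _ (Nat.le_succ k) hrk))
  have hrfix : ∀ h : H, (h : E ≃ₐ[ℚ_[q]] E) r = r := fun h => by
    rw [hr, map_sum]
    exact Fintype.sum_equiv (Equiv.mulLeft h) _ _ fun i => rfl
  have hw'0 : ∑ h : H, (h : E ≃ₐ[ℚ_[q]] E) w' = 0 := by
    simp only [hw', map_sub, Finset.sum_sub_distrib]
    rw [← hr, sub_eq_zero]
    conv_lhs => rw [← Λ.sum_conj_proj H r]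
    refine Finset.sum_congr rfl fun h _ => ?_
    rw [← Subgroup.coe_inv, hrfix h⁻¹]
  set a : H → E := fun h => proj Λ H ((h : E ≃ₐ[ℚ_[q]] E)⁻¹ w') with ha
  have hak : ∀ h, a h ∈ lat Λ.basis k := fun h => Λ.proj_mem H (Λ.map_mem_lat hw'k)
  have hsa : ∑ h : H, ((h : E ≃ₐ[ℚ_[q]] E) (a h) - a h) = w' := by
    rw [Finset.sum_sub_distrib, Λ.sum_conj_proj H w', ha, ← proj_sum]
    have : ∑ h : H, (h : E ≃ₐ[ℚ_[q]] E)⁻¹ w' = 0 := by
      rw [← hw'0]
      exact Fintype.sum_equiv (Equiv.inv H) _ _ fun h => rfl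
    rw [this, show proj Λ H (0 : E) = 0 by simp [proj], sub_zero]
  have hne := fun h => Λ.good.one_add_ne_zero (hak h)
  set f : H → Eˣ := fun h => Units.mk0 _ (hne h) with hf
  have hfk : ∀ h, f h ∈ deepUnits Λ.good k := fun h => by simp [hf, mem_deepUnits, hak h]
  refine ⟨f, hfk, ?_, ?_⟩
  · refine div_mem hzC (MonoidHom.mem_ker.mpr ?_)
    show normHom H (∏ h : H, _) = 1
    rw [map_prod]
    refine Finset.prod_eq_one fun h _ => ?_
    rw [map_div, normHom_smul, div_self']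
  · rw [add_zero]
    refine div_mem_deepUnits Λ.good (Subgroup.prod_mem _ fun h _ =>
      deepUnits_anti Λ.good (Nat.zero_le k) (div_mem (Λ.smul_mem_deepUnits (hfk h)) (hfk h))) ?_
    have hY : ∀ h ∈ (Finset.univ : Finset H),
        (h : E ≃ₐ[ℚ_[q]] E) (1 + a h) * (1 + a h)⁻¹ - 1 ∈ lat Λ.basis k := by
      intro h _
      have := (deepUnits Λ.good k).mul_mem (Λ.smul_mem_deepUnits (σ := (h : E ≃ₐ[ℚ_[q]] E)) (hfk h))
        ((deepUnits Λ.good k).inv_mem (hfk h))
      rw [mem_deepUnits, Units.val_mul, Units.val_inv_eq_inv_val] at this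
      exact this
    have hA : ∀ h ∈ (Finset.univ : Finset H),
        (h : E ≃ₐ[ℚ_[q]] E) (1 + a h) * (1 + a h)⁻¹ - 1
          - ((h : E ≃ₐ[ℚ_[q]] E) (a h) - a h) ∈ lat Λ.basis (k + 1) := by
      intro h _
      have h1 : (h : E ≃ₐ[ℚ_[q]] E) (1 + a h) = 1 + (h : E ≃ₐ[ℚ_[q]] E) (a h) := by
        rw [map_add, map_one]
      have hi : (1 + a h)⁻¹ - 1 ∈ lat Λ.basis k :=
        Λ.good.inv_sub_one_mem (by rw [add_sub_cancel_left]; exact hak h)
      have e : (h : E ≃ₐ[ℚ_[q]] E) (1 + a h) * (1 + a h)⁻¹ - 1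
          - ((h : E ≃ₐ[ℚ_[q]] E) (a h) - a h) =
          ((h : E ≃ₐ[ℚ_[q]] E) (a h) - a h) * ((1 + a h)⁻¹ - 1) := by
        rw [h1]
        field_simp [hne h]
        ring
      rw [e]
      exact lat_anti _ (by omega)
        (Λ.good.mul_mem (sub_mem (Λ.map_mem_lat (hak h)) (hak h)) hi)
    obtain ⟨-, h2⟩ := Λ.good.prod_congr_mem (Finset.univ : Finset H) (k := k)
      (fun h => (h : E ≃ₐ[ℚ_[q]] E) (1 + a h) * (1 + a h)⁻¹)
      (fun h => (h : E ≃ₐ[ℚ_[q]] E) (a h) - a h) hY hA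
    rw [hsa] at h2
    have e : ((augHom H f : Eˣ) : E) =
        ∏ h : H, (h : E ≃ₐ[ℚ_[q]] E) (1 + a h) * (1 + a h)⁻¹ := by
      show ((∏ h : H, _ : Eˣ) : E) = _
      rw [Units.coe_prod]
      refine Finset.prod_congr rfl fun h _ => ?_
      rw [Units.val_div_eq_div_val, div_eq_mul_inv]
      rfl
    have e2 : (z : E) - ((augHom H f : Eˣ) : E) = -((((augHom H f : Eˣ) : E) - 1 - w')) +
        proj Λ H r := by rw [hw', hw]; ring
    rw [e2, e]
    exact add_mem (neg_mem h2) (Λ.proj_mem H hrk)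

end NormalLattice

end Fermat.Agent.CFT.Local
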