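import Fermat.Agent.CFT.Idele.Bridge
import Fermat.Agent.CFT.Local.Herbrand
import Fermat.Agent.CFT.Local.NormalLattice

/-!
# The local norm index of a cyclic group

The unit group is compact, so deep units have finite index in it; for a finite cyclic `H` this
gives Herbrand quotient `1` on units and `[(Eˣ)^H : N Eˣ] = |H|`.
-/

set_option autoImplicit false

noncomputable section

namespace Fermat.Agent.CFT.Local

open Module Filter Topology

variable {q : ℕ} [Fact q.Prime] {E : IntermediateField ℚ_[q] (PadicAlgCl q)}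
  [FiniteDimensional ℚ_[q] E]

/-- Deep units have finite index in the units. -/
theorem relIndex_deepUnits_ne_zero {ι : Type*} [Fintype ι] {b : Basis ι ℚ_[q] E}
    (hb : GoodBasis b) (k : ℕ) : (deepUnits hb k).relIndex (unitGroup E) ≠ 0 := by
  have hU : IsCompact (unitGroup E : Set Eˣ) := by
    refine Units.isEmbedding_val₀.isCompact_iff.mpr ?_
    rw [show Units.val '' (unitGroup E : Set Eˣ) = Metric.sphere (0 : E) 1 from ?_]
    · exact isCompact_sphere (0 : E) 1
    ext x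
    rw [Set.mem_image, mem_sphere_zero_iff_norm]
    exact ⟨by rintro ⟨u, hu, rfl⟩; exact (mem_unitGroup E).mp hu, fun hx =>
      ⟨Units.mk0 x (norm_ne_zero_iff.mp (hx ▸ one_ne_zero)), (mem_unitGroup E).mpr hx, rfl⟩⟩
  have : CompactSpace (unitGroup E) := isCompact_iff_compactSpace.mp hU
  have := Subgroup.quotient_finite_of_isOpen ((deepUnits hb k).subgroupOf (unitGroup E))
    ((Subgroup.isOpen_of_mem_nhds (deepUnits hb k) (g := 1)
      (((Units.continuous_val.sub continuous_const).tendsto' (1 : Eˣ) 0 (sub_self _))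
        (lat_mem_nhds_zero b k))).preimage continuous_subtype_val)
  exact Subgroup.index_ne_zero_of_finite

/-- The invariant units of `H`. -/
def fixedUnits (H : Subgroup (E ≃ₐ[ℚ_[q]] E)) : Subgroup Eˣ where
  carrier := {x | ∀ h : H, (h : E ≃ₐ[ℚ_[q]] E) • x = x}
  one_mem' h := smul_one _
  mul_mem' {a b} ha hb h := by rw [smul_mul', ha h, hb h]
  inv_mem' {a} ha h := by rw [smul_inv', ha h]

/-- `x ↦ σ x / x`. -/
def augOne (σ : E ≃ₐ[ℚ_[q]] E) : Eˣ →* Eˣ where
  toFun x := σ • x / x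
  map_one' := by simp
  map_mul' x y := by rw [smul_mul', div_mul_div_comm]

section Cyclic

variable {H : Subgroup (E ≃ₐ[ℚ_[q]] E)} {σ : E ≃ₐ[ℚ_[q]] E}

omit [FiniteDimensional ℚ_[q] ↥E] in
theorem fixedUnits_eq_ker (hσ : Subgroup.zpowers σ = H) : fixedUnits H = (augOne σ).ker := by
  ext x
  rw [MonoidHom.mem_ker, show augOne σ x = σ • x / x from rfl, div_eq_one]
  refine ⟨fun h => h ⟨σ, hσ ▸ Subgroup.mem_zpowers σ⟩, fun h => ?_⟩
  rintro ⟨g, hg⟩
  have : Subgroup.zpowers σ ≤ MulAction.stabilizer (E ≃ₐ[ℚ_[q]] E) x :=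
    Subgroup.zpowers_le.mpr h
  exact this (hσ.symm ▸ hg)

theorem smul_div_mem_map_augOne (hσ : Subgroup.zpowers σ = H) (S : Subgroup Eˣ)
    (hS : ∀ x ∈ S, σ • x ∈ S) (h : H) {b : Eˣ} (hb : b ∈ S) :
    (h : E ≃ₐ[ℚ_[q]] E) • b / b ∈ S.map (augOne σ) := by
  have hσfin : IsOfFinOrder σ := isOfFinOrder_of_finite σ
  obtain ⟨n, hn⟩ := hσfin.mem_powers_iff_mem_zpowers.mpr
    (show (h : E ≃ₐ[ℚ_[q]] E) ∈ Subgroup.zpowers σ by rw [hσ]; exact h.2)
  rw [← hn]
  clear hn
  show σ ^ n • b / b ∈ _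
  induction n generalizing b with
  | zero => rw [pow_zero, one_smul, div_self']; exact one_mem _
  | succ n ih =>
    rw [pow_succ, mul_smul, ← div_mul_div_cancel (σ ^ n • σ • b) (σ • b) b]
    exact mul_mem (ih (hS b hb)) ⟨b, hb, rfl⟩

omit [FiniteDimensional ℚ_[q] ↥E] in
theorem augOne_normHom [Fintype H] (hσ : Subgroup.zpowers σ = H) (x : Eˣ) :
    augOne σ (NormalLattice.normHom H x) = 1 :=
  div_eq_one.mpr (NormalLattice.smul_normHom H ⟨σ, hσ ▸ Subgroup.mem_zpowers σ⟩ x)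

omit [FiniteDimensional ℚ_[q] ↥E] in
theorem normHom_augOne [Fintype H] (hσ : Subgroup.zpowers σ = H) (x : Eˣ) :
    NormalLattice.normHom H (augOne σ x) = 1 := by
  rw [show augOne σ x = σ • x / x from rfl, map_div,
    NormalLattice.normHom_smul H ⟨σ, hσ ▸ Subgroup.mem_zpowers σ⟩ x, div_self']

theorem augOne_mem_unitGroup (x : Eˣ) : augOne σ x ∈ unitGroup E := by
  rw [← ord_eq_one_iff, show augOne σ x = σ • x / x from rfl, map_div, ord_smul_unit, div_self']

/-- Hilbert 90 for a cyclic group. -/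
theorem exists_augOne_eq [Fintype H] (hσ : Subgroup.zpowers σ = H) {x : Eˣ}
    (hx : NormalLattice.normHom H x = 1) : ∃ y : Eˣ, augOne σ y = x := by
  let e := FixedPoints.toAlgAutMulEquiv H E
  let g₀ : H := ⟨σ, hσ ▸ Subgroup.mem_zpowers σ⟩
  have hg : ∀ τ, τ ∈ Subgroup.zpowers (e g₀) := fun τ => by
    obtain ⟨⟨t, ht⟩, rfl⟩ := e.surjective τ
    obtain ⟨n, rfl⟩ := Subgroup.mem_zpowers_iff.mp (hσ ▸ ht)
    exact ⟨n, (map_zpow e g₀ n).symm.trans (congrArg e (Subtype.ext rfl))⟩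
  have : IsCyclic (E ≃ₐ[FixedPoints.subfield H E] E) := ⟨⟨e g₀, hg⟩⟩
  obtain ⟨y, hy⟩ := groupCohomology.exists_div_of_norm_eq_one hg (x := ((x : E))) (by
    refine FaithfulSMul.algebraMap_injective (FixedPoints.subfield H E) E ?_
    rw [map_one, Algebra.norm_eq_prod_automorphisms, ← e.toEquiv.prod_comp, ← Units.val_one, ← hx]
    exact (map_prod (Units.coeHom E) (fun h : H => (h : E ≃ₐ[ℚ_[q]] E) • x) Finset.univ).symm)
  refine ⟨y⁻¹, Units.ext ?_⟩
  rw [← hy, show augOne σ y⁻¹ = σ • y⁻¹ / y⁻¹ from rfl, smul_inv', inv_div_inv,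
    Units.val_div_eq_div_val]
  rfl

/-- The Herbrand quotient of the unit group is `1`. -/
theorem unit_herbrand [Normal ℚ_[q] E] [Fintype H] (hσ : Subgroup.zpowers σ = H) :
    ((unitGroup E).map (NormalLattice.normHom H)).relIndex (unitGroup E ⊓ fixedUnits H) =
      ((unitGroup E).map (augOne σ)).relIndex (unitGroup E ⊓ (NormalLattice.normHom H).ker) ∧
    ((unitGroup E).map (NormalLattice.normHom H)).relIndex (unitGroup E ⊓ fixedUnits H) ≠ 0 := by
  obtain ⟨Λ⟩ := exists_normalLattice (E := E)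
  rw [fixedUnits_eq_ker hσ]
  have h := Idele.ind0Sub_eq_of_triv (augOne σ) (NormalLattice.normHom H) (U := unitGroup E) ?_ ?_
    (augOne_normHom hσ) (normHom_augOne hσ) (deepUnits_le_unitGroup Λ.good) ?_ ?_
    (relIndex_deepUnits_ne_zero Λ.good 0) (Subgroup.relIndex_eq_one.mpr ?_)
    (Subgroup.relIndex_eq_one.mpr ?_)
  · exact ⟨h.1, h.1.trans_ne h.2⟩
  · rintro _ ⟨x, -, rfl⟩
    exact augOne_mem_unitGroup x
  · rintro _ ⟨x, hx, rfl⟩
    exact Subgroup.prod_mem _ fun h _ => (smul_mem_unitGroup_iff _ x).mpr hx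
  · rintro _ ⟨x, hx, rfl⟩
    exact div_mem (Λ.smul_mem_deepUnits hx) hx
  · rintro _ ⟨x, hx, rfl⟩
    exact Λ.normHom_mem_deepUnits H hx
  · rintro x ⟨hx, hfix⟩
    rw [← fixedUnits_eq_ker hσ] at hfix
    obtain ⟨y, hy, hyx⟩ := Λ.exists_normHom_eq H hx hfix
    exact ⟨y, hy, hyx⟩
  · rintro x ⟨hx, hN⟩
    obtain ⟨f, hf, rfl⟩ := Λ.exists_augHom_eq H hx (MonoidHom.mem_ker.mp hN)
    exact Subgroup.prod_mem _ fun h _ =>
      smul_div_mem_map_augOne hσ _ (fun _ hy => Λ.smul_mem_deepUnits hy) h (hf h)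

theorem ord_normHom [Fintype H] (x : Eˣ) :
    ord E (NormalLattice.normHom H x) = ord E x ^ Fintype.card H := by
  show ord E (∏ h : H, (h : E ≃ₐ[ℚ_[q]] E) • x) = _
  simp only [map_prod, ord_smul_unit, Finset.prod_const, Finset.card_univ]

theorem map_range_ord_eq (f : Eˣ →* Eˣ) (n : ℕ) (hf : ∀ y, ord E (f y) = ord E y ^ n) :
    f.range.map (ord E) = (powMonoidHom n : Multiplicative ℤ →* _).range := by
  ext t
  constructor
  · rintro ⟨_, ⟨y, rfl⟩, rfl⟩
    exact ⟨ord E y, (hf y).symm⟩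
  · rintro ⟨u, rfl⟩
    obtain ⟨y, rfl⟩ := ord_surjective E u
    exact ⟨f y, ⟨y, rfl⟩, hf y⟩

theorem range_inf_unitGroup (f : Eˣ →* Eˣ) {n : ℕ} (hn : n ≠ 0)
    (hf : ∀ y, ord E (f y) = ord E y ^ n) (hU : (unitGroup E).map f ≤ unitGroup E) :
    f.range ⊓ unitGroup E = (unitGroup E).map f := by
  refine le_antisymm ?_ (le_inf (Subgroup.map_le_range _ _) hU)
  rintro _ ⟨⟨y, rfl⟩, hy⟩
  replace hy : f y ∈ unitGroup E := hy
  rw [← ord_eq_one_iff, hf] at hy
  exact ⟨y, (ord_eq_one_iff E).mp ((pow_eq_one_iff_left hn).mp hy), rfl⟩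

/-- The local norm index of a cyclic group. -/
theorem relIndex_normHom_range [Normal ℚ_[q] E] [Fintype H] (hσ : Subgroup.zpowers σ = H) :
    (NormalLattice.normHom H).range.relIndex (fixedUnits H) = Fintype.card H := by
  set N := NormalLattice.normHom (E := E) H with hN
  have hRC : N.range ≤ fixedUnits H := by
    rintro _ ⟨x, rfl⟩ h
    exact NormalLattice.smul_normHom H h x
  have hker : (ord E).ker = unitGroup E := by
    ext x
    rw [MonoidHom.mem_ker, ord_eq_one_iff]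
  have hcard : 0 < Fintype.card H := Fintype.card_pos
  rw [relIndex_eq_map_mul (ord E) hRC, hker]
  have hRU := range_inf_unitGroup N hcard.ne' ord_normHom (by
    rintro _ ⟨y, hy, rfl⟩
    exact Subgroup.prod_mem _ fun h _ => (smul_mem_unitGroup_iff _ y).mpr hy)
  rw [hRU, inf_comm (fixedUnits H), (unit_herbrand hσ).1]
  have hkN : unitGroup E ⊓ N.ker = (augOne σ).range := by
    refine le_antisymm ?_ ?_
    · rintro x ⟨-, hx⟩
      obtain ⟨y, rfl⟩ := exists_augOne_eq hσ (MonoidHom.mem_ker.mp hx)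
      exact ⟨y, rfl⟩
    · rintro _ ⟨y, rfl⟩
      exact ⟨augOne_mem_unitGroup y, normHom_augOne hσ y⟩
  rw [hkN, MonoidHom.range_eq_map (augOne σ),
    Subgroup.relIndex_map_map (augOne σ) (unitGroup E) ⊤,
    top_sup_eq, Subgroup.relIndex_top_right, ← fixedUnits_eq_ker hσ]
  set M := (fixedUnits H).map (ord E) with hM
  have hMidx : M.index = (unitGroup E ⊔ fixedUnits H).index := by
    rw [hM, Subgroup.index_map, hker, MonoidHom.range_eq_top.mpr (ord_surjective E),
      Subgroup.index_top, mul_one, sup_comm]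
  rw [← hMidx]
  have hRM : N.range.map (ord E) ≤ M := Subgroup.map_mono hRC
  rw [Subgroup.relIndex_mul_index hRM]
  have hR := map_range_ord_eq N (Fintype.card H) ord_normHom
  rw [hR, index_range_powMonoidHom_multiplicative_int]
where
  index_range_powMonoidHom_multiplicative_int {n : ℕ} :
      (powMonoidHom n : Multiplicative ℤ →* Multiplicative ℤ).range.index = n := by
    have : (powMonoidHom n : Multiplicative ℤ →* Multiplicative ℤ).range =
        (AddSubgroup.zmultiples (n : ℤ)).toSubgroup := Subgroup.ext fun t => by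
      show (∃ u, u ^ n = t) ↔ Multiplicative.toAdd t ∈ AddSubgroup.zmultiples (n : ℤ)
      rw [Int.mem_zmultiples_iff, Multiplicative.exists]
      exact exists_congr fun a => by
        rw [← Multiplicative.toAdd.injective.eq_iff, toAdd_pow, toAdd_ofAdd, nsmul_eq_mul, eq_comm]
    rw [this, AddSubgroup.index_toSubgroup, Int.index_zmultiples, Int.natAbs_natCast]

end Cyclic

end Fermat.Agent.CFT.Local
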