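import Fermat.Agent.CFT.Local.Fixed

/-!
# Unramified extensions: units, norms, base change
-/

set_option autoImplicit false
set_option linter.style.haveILetI false

noncomputable section

namespace Fermat.Agent.CFT.Local

open groupCohomology

variable {q : ℕ} [Fact q.Prime] {E : IntermediateField ℚ_[q] (PadicAlgCl q)}
  [FiniteDimensional ℚ_[q] E]

/-- The Galois action on the unit group. -/
instance galUnitGroupAction : DistribMulAction (E ≃ₐ[ℚ_[q]] E) (Additive (unitGroup E)) where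
  smul σ a := Additive.ofMul
    ⟨σ • (a.toMul : Eˣ), (smul_mem_unitGroup_iff σ (a.toMul : Eˣ)).mpr a.toMul.2⟩
  one_smul a := congrArg Additive.ofMul (Subtype.ext (one_smul _ (a.toMul : Eˣ)))
  mul_smul σ τ a := congrArg Additive.ofMul (Subtype.ext (mul_smul σ τ (a.toMul : Eˣ)))
  smul_zero σ := congrArg Additive.ofMul (Subtype.ext (smul_one σ))
  smul_add σ a b := congrArg Additive.ofMul
    (Subtype.ext (smul_mul' σ (a.toMul : Eˣ) (b.toMul : Eˣ)))

omit [FiniteDimensional ℚ_[q] E] in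
theorem exists_zpowers_eq (H : Subgroup (E ≃ₐ[ℚ_[q]] E)) [IsCyclic H] :
    ∃ σ, Subgroup.zpowers σ = H := by
  obtain ⟨g, hg⟩ := IsCyclic.exists_generator (α := H)
  refine ⟨g.1, ?_⟩
  rw [show (g.1 : E ≃ₐ[ℚ_[q]] E) = H.subtype g from rfl, ← MonoidHom.map_zpowers,
    (Subgroup.eq_top_iff' _).mpr hg, ← MonoidHom.range_eq_map, Subgroup.range_subtype]

theorem ordZ_normHom (H : Subgroup (E ≃ₐ[ℚ_[q]] E)) [Fintype H] (x : Eˣ) :
    ordZ E (NormalLattice.normHom H x) = Fintype.card H * ordZ E x := by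
  rw [ordZ, ord_normHom, toAdd_pow, nsmul_eq_mul]; rfl

section Unramified

variable (H : Subgroup (E ≃ₐ[ℚ_[q]] E)) (hH : H ⊓ inertia E = ⊥)

include hH in
/-- Any element becomes a unit after division by a fixed element. -/
theorem exists_fixed_div_mem_unitGroup (y : Eˣ) :
    ∃ z ∈ fixedUnits H, y / z ∈ unitGroup E := by
  obtain ⟨π, hπ, hπ1⟩ := exists_fixed_ord_eq_one H hH
  refine ⟨π ^ ordZ E y, zpow_mem hπ _, (ord_eq_one_iff E).mp ?_⟩
  rw [map_div, map_zpow, hπ1, ← ofAdd_zsmul, smul_eq_mul, mul_one, ordZ, ofAdd_toAdd, div_self']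

variable [Normal ℚ_[q] E] [Fintype H]

include hH in
/-- The norms from an unramified extension. -/
theorem exists_normHom_eq_iff {x : Eˣ} (hx : x ∈ fixedUnits H) :
    (∃ y, NormalLattice.normHom H y = x) ↔ (Fintype.card H : ℤ) ∣ ordZ E x := by
  haveI := isCyclic_of_inf_inertia_eq_bot H hH
  refine ⟨?_, fun hdvd => ?_⟩
  · rintro ⟨y, rfl⟩
    exact ⟨_, ordZ_normHom H y⟩
  obtain ⟨σ, hσ⟩ := exists_zpowers_eq H
  set N := NormalLattice.normHom (E := E) H
  set M := (powMonoidHom (Fintype.card H) : Multiplicative ℤ →* Multiplicative ℤ).range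
  set X := fixedUnits H ⊓ M.comap (ord E)
  have hRX : N.range ≤ X := by
    rintro _ ⟨y, rfl⟩
    exact ⟨fun h => NormalLattice.smul_normHom H h y, ord E y, (ord_normHom y).symm⟩
  have hmap : (fixedUnits H).map (ord E) = ⊤ := by
    obtain ⟨π, hπ, hπ1⟩ := exists_fixed_ord_eq_one H hH
    refine (Subgroup.eq_top_iff' _).mpr fun t => ⟨π ^ Multiplicative.toAdd t, zpow_mem hπ _, ?_⟩
    rw [map_zpow, hπ1, ← ofAdd_zsmul, smul_eq_mul, mul_one, ofAdd_toAdd]
  have h1 : X.relIndex (fixedUnits H) = Fintype.card H := by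
    rw [Subgroup.inf_relIndex_left, Subgroup.relIndex_comap, hmap, Subgroup.relIndex_top_right,
      relIndex_normHom_range.index_range_powMonoidHom_multiplicative_int]
  have h2 := Subgroup.relIndex_mul_relIndex N.range X (fixedUnits H) hRX inf_le_left
  rw [h1, relIndex_normHom_range hσ] at h2
  have h3 : N.range.relIndex X = 1 := (mul_eq_right₀ Fintype.card_ne_zero).mp h2
  obtain ⟨k, hk⟩ := hdvd
  have hxX : x ∈ X := ⟨hx, Multiplicative.ofAdd k, Multiplicative.toAdd.injective (by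
    rw [powMonoidHom_apply, toAdd_pow, toAdd_ofAdd, nsmul_eq_mul]; exact hk.symm)⟩
  exact Subgroup.relIndex_eq_one.mp h3 hxX

include hH in
omit [Normal ℚ_[q] E] [Fintype H] in
/-- Every cocycle in the units is a coboundary. -/
theorem h1Zero_unitGroup : H1Zero H (Additive (unitGroup E)) := by
  intro c hc
  obtain ⟨β, hβ⟩ := h1Zero_units H (fun h => Additive.ofMul ((c h).toMul : Eˣ)) fun g h => by
    show Additive.ofMul ((c (g * h)).toMul : Eˣ) = _
    rw [hc g h]
    rfl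
  obtain ⟨z, hz, hu⟩ := exists_fixed_div_mem_unitGroup H hH β.toMul
  refine ⟨Additive.ofMul ⟨β.toMul / z, hu⟩, fun g => Additive.toMul.injective (Subtype.ext ?_)⟩
  have h1 := congrArg Additive.toMul (hβ g)
  rw [toMul_sub, toMul_ofMul] at h1
  show (g : E ≃ₐ[ℚ_[q]] E) • (β.toMul / z) / (β.toMul / z) = _
  rw [smul_div', show (g : E ≃ₐ[ℚ_[q]] E) • z = z from hz g, div_div_div_cancel_right]
  exact h1

end Unramified

section BaseChange

variable (G N N' : Subgroup (E ≃ₐ[ℚ_[q]] E)) {n : ℕ}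

/-- Ramified base change: if `G` is killed modulo `N` and modulo `N'` by `n`, `N ∩ N' = ⊥`,
`|G| = |N| n` and inertia of `G` lies in `N'`, then `N` is unramified and `|N|` divides the
valuation of every `G`-invariant element. -/
theorem card_dvd_ordZ_of_base_change (hNG : N ≤ G) (hN : ∀ g ∈ G, g ^ n ∈ N)
    (hN' : ∀ g ∈ G, g ^ n ∈ N') (hNN' : N ⊓ N' = ⊥) (hI : G ⊓ inertia E ≤ N')
    (hcard : Nat.card G = Nat.card N * n) :
    N ⊓ inertia E = ⊥ ∧ ∀ x ∈ fixedUnits G, (Nat.card N : ℤ) ∣ ordZ E x := by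
  refine ⟨eq_bot_iff.mpr (hNN' ▸ le_inf inf_le_left ((inf_le_inf_right _ hNG).trans hI)),
    fun x hx => ?_⟩
  set ψ := (resAut E).comp G.subtype
  have hn : n ≠ 0 := fun h => by
    rw [h, mul_zero] at hcard
    exact Nat.card_pos.ne' hcard
  have hrange : Nat.card ψ.range ∣ n := by
    rw [← IsCyclic.exponent_eq_card]
    refine Monoid.exponent_dvd_of_forall_pow_eq_one ?_
    rintro ⟨_, g, rfl⟩
    have hg : (g : E ≃ₐ[ℚ_[q]] E) ^ n = 1 := by
      rw [← Subgroup.mem_bot, ← hNN']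
      exact ⟨hN g g.2, hN' g g.2⟩
    refine Subtype.ext ?_
    show ψ g ^ n = 1
    rw [← map_pow]
    show resAut E ((g : E ≃ₐ[ℚ_[q]] E) ^ n) = 1
    rw [hg, map_one]
  have hker : Nat.card ψ.ker = Nat.card (G ⊓ inertia E : Subgroup (E ≃ₐ[ℚ_[q]] E)) := by
    have : ψ.ker = (G ⊓ inertia E).subgroupOf G := by
      ext g
      rw [MonoidHom.mem_ker, Subgroup.mem_subgroupOf]
      exact ⟨fun h => ⟨g.2, h⟩, fun h => h.2⟩
    rw [this]
    exact Nat.card_congr (Subgroup.subgroupOfEquivOfLe inf_le_left).toEquiv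
  have hprod := ψ.ker.card_mul_index
  rw [Subgroup.index_ker, hcard, hker] at hprod
  obtain ⟨m, hm⟩ := hrange
  have hk : Nat.card ψ.range ≠ 0 := fun h => hn (by rw [hm, h, zero_mul])
  have hdvd : Nat.card N ∣ Nat.card (G ⊓ inertia E : Subgroup (E ≃ₐ[ℚ_[q]] E)) := by
    refine ⟨m, mul_right_cancel₀ hk ?_⟩
    rw [hprod]
    conv_lhs => rw [hm]
    ring
  exact (Int.natCast_dvd_natCast.mpr hdvd).trans (card_inf_inertia_dvd_ordZ G hx)

/-- In that situation every `G`-invariant element is a norm from `N`. -/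
theorem exists_normHom_eq_of_base_change [Normal ℚ_[q] E] [Fintype N] (hNG : N ≤ G)
    (hN : ∀ g ∈ G, g ^ n ∈ N) (hN' : ∀ g ∈ G, g ^ n ∈ N') (hNN' : N ⊓ N' = ⊥)
    (hI : G ⊓ inertia E ≤ N') (hcard : Nat.card G = Nat.card N * n) {x : Eˣ}
    (hx : x ∈ fixedUnits G) : ∃ y, NormalLattice.normHom N y = x := by
  obtain ⟨h1, h2⟩ := card_dvd_ordZ_of_base_change G N N' hNG hN hN' hNN' hI hcard
  refine (exists_normHom_eq_iff N h1 (fun h => hx ⟨h, hNG h.2⟩)).mpr ?_
  rw [← Nat.card_eq_fintype_card]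
  exact h2 x hx

end BaseChange

end Fermat.Agent.CFT.Local
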