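import Fermat.Agent.CFT.Local.NormIndex

/-!
# The index of the `p`-th powers in a `q`-adic field

`[Eˣ : Eˣᵖ] = p · #μ_p(E) · (p ^ [E : ℚ_q] if q = p)` for an odd prime `p`.
-/

set_option autoImplicit false

noncomputable section

namespace Fermat.Agent.CFT.Local

open Module

variable {q : ℕ} [Fact q.Prime] {E : IntermediateField ℚ_[q] (PadicAlgCl q)}
  [FiniteDimensional ℚ_[q] E]
  {ι : Type*} [Fintype ι] {b : Basis ι ℚ_[q] E}

omit [FiniteDimensional ℚ_[q] ↥E] [Fintype ι] in
theorem smul_mem_lat_of_norm_le {c : ℚ_[q]} {k m : ℕ} (hc : ‖c‖ ≤ qInv q ^ m) {x : E}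
    (hx : x ∈ lat b k) : c • x ∈ lat b (k + m) := fun i => by
  rw [map_smul, Finsupp.smul_apply, smul_eq_mul, norm_mul, mul_comm ‖c‖, pow_add]
  exact mul_le_mul (hx i) hc (norm_nonneg _) (pow_nonneg qInv_pos.le _)

omit [FiniteDimensional ℚ_[q] ↥E] [Fintype ι] in
theorem natCast_mul_mem_lat {n m k : ℕ} (hn : q ^ m ∣ n) {x : E} (hx : x ∈ lat b k) :
    (n : E) * x ∈ lat b (k + m) := by
  rw [← map_natCast (algebraMap ℚ_[q] E) n, ← Algebra.smul_def]
  refine smul_mem_lat_of_norm_le ?_ hx
  obtain ⟨d, rfl⟩ := hn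
  rw [Nat.cast_mul, norm_mul, Nat.cast_pow, norm_pow, Padic.norm_p]
  calc (qInv q) ^ m * ‖(d : ℚ_[q])‖ ≤ (qInv q) ^ m * 1 :=
        mul_le_mul_of_nonneg_left (IsUltrametricDist.norm_natCast_le_one ℚ_[q] d)
          (pow_nonneg qInv_pos.le _)
    _ = _ := mul_one _

omit [FiniteDimensional ℚ_[q] ↥E] in
/-- `(1 + a) ^ n ≡ 1 + n a + C(n,2) a²` modulo `a³`. -/
theorem GoodBasis.pow_expand (hb : GoodBasis b) {k : ℕ} {a : E} (ha : a ∈ lat b k) (n : ℕ) :
    (1 + a) ^ n - 1 - (n : E) * a - (n.choose 2 : E) * a ^ 2 ∈ lat b (3 * k + 2) := by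
  induction n with
  | zero => simp
  | succ n ih =>
    have h2 : a ^ 2 ∈ lat b (2 * k + 1) := by
      rw [sq]; exact lat_anti b (by omega) (hb.mul_mem ha ha)
    have hca : (n.choose 2 : E) * a ^ 2 * a ∈ lat b (3 * k + 2) :=
      lat_anti b (by omega) (hb.mul_mem (natCast_mul_mem_lat (m := 0) (by simp) h2) ha)
    have hra : ((1 + a) ^ n - 1 - (n : E) * a - (n.choose 2 : E) * a ^ 2) * a ∈
        lat b (3 * k + 2) := lat_anti b (by omega) (hb.mul_mem ih ha)
    have hch : ((n + 1).choose 2 : E) = (n : E) + (n.choose 2 : E) := by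
      rw [Nat.choose_succ_succ, Nat.choose_one_right, Nat.cast_add]
    have e : (1 + a) ^ (n + 1) - 1 - ((n + 1 : ℕ) : E) * a - ((n + 1).choose 2 : E) * a ^ 2 =
        ((1 + a) ^ n - 1 - (n : E) * a - (n.choose 2 : E) * a ^ 2)
          + ((n.choose 2 : E) * a ^ 2 * a
          + ((1 + a) ^ n - 1 - (n : E) * a - (n.choose 2 : E) * a ^ 2) * a) := by
      rw [hch]; push_cast; ring
    rw [e]
    exact add_mem ih (add_mem hca hra)

variable {p : ℕ}

/-- The shift of the `p`-th power map on the filtration. -/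
def powShift (q p : ℕ) : ℕ := if q = p then 1 else 0

variable [hp : Fact p.Prime] (hp2 : p ≠ 2)

omit [FiniteDimensional ℚ_[q] ↥E] in
include hp2 in
theorem GoodBasis.pow_sub_mem (hb : GoodBasis b) {k : ℕ} {a : E} (ha : a ∈ lat b k) :
    (1 + a) ^ p - 1 - (p : E) * a ∈ lat b (k + powShift q p + 1) := by
  have h := hb.pow_expand ha p
  have h2 : a ^ 2 ∈ lat b (2 * k + 1) := by
    rw [sq]; exact lat_anti b (by omega) (hb.mul_mem ha ha)
  have hdvd : q ^ powShift q p ∣ p.choose 2 := by
    unfold powShift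
    split_ifs with hqp
    · rw [pow_one, hqp]
      exact hp.out.dvd_choose_self (by norm_num) (lt_of_le_of_ne hp.out.two_le (Ne.symm hp2))
    · simp
  have hs : powShift q p ≤ 1 := by unfold powShift; split_ifs <;> simp
  have hc : (p.choose 2 : E) * a ^ 2 ∈ lat b (k + powShift q p + 1) :=
    lat_anti b (by omega) (natCast_mul_mem_lat hdvd h2)
  have e : (1 + a) ^ p - 1 - (p : E) * a =
      ((1 + a) ^ p - 1 - (p : E) * a - (p.choose 2 : E) * a ^ 2)
        + (p.choose 2 : E) * a ^ 2 := by ring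
  rw [e]
  exact add_mem (lat_anti b (by omega) h) hc

theorem norm_pCast : ‖(p : ℚ_[q])‖ = qInv q ^ powShift q p := by
  unfold powShift
  split_ifs with h
  · subst h; rw [pow_one]; exact Padic.norm_p
  · rw [pow_zero, Padic.norm_natCast_eq_one_iff]
    exact (Nat.coprime_primes (Fact.out : q.Prime) hp.out).mpr h

include hp2 in
theorem GoodBasis.pow_mem_deepUnits (hb : GoodBasis b) {k : ℕ} {x : Eˣ}
    (hx : x ∈ deepUnits hb k) : x ^ p ∈ deepUnits hb (k + powShift q p) := by
  rw [mem_deepUnits] at hx ⊢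
  have h := hb.pow_sub_mem hp2 hx
  rw [show (1 : E) + ((x : E) - 1) = x by ring] at h
  have hpa : (p : E) * ((x : E) - 1) ∈ lat b (k + powShift q p) := by
    rw [← map_natCast (algebraMap ℚ_[q] E) p, ← Algebra.smul_def]
    exact smul_mem_lat_of_norm_le (norm_pCast (q := q) (p := p)).le hx
  have := add_mem (lat_anti b (Nat.le_succ _) h) hpa
  simpa using this

include hp2 in
theorem GoodBasis.map_pow_deepUnits (hb : GoodBasis b) :
    (deepUnits hb 0).map (powMonoidHom p : Eˣ →* Eˣ) = deepUnits hb (powShift q p) := by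
  refine le_antisymm ?_ ?_
  · rintro _ ⟨x, hx, rfl⟩
    simpa using hb.pow_mem_deepUnits hp2 hx
  · intro x hx
    let F : (Unit → Eˣ) →* Eˣ := (powMonoidHom p).comp (Pi.evalMonoidHom _ ())
    refine (exists_preimage_of_approx hb F ⊤ (powShift q p)
      (fun n f hf => (deepUnits hb n).pow_mem (hf ()) p) (fun k z _ hz => ?_)
      trivial hx).elim fun f hf => ⟨f (), hf.1 (), hf.2⟩
    set a := (p : ℚ_[q])⁻¹ • ((z : E) - 1) with ha
    have hp0 : (p : ℚ_[q]) ≠ 0 := Nat.cast_ne_zero.mpr hp.out.ne_zero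
    have hak : a ∈ lat b k := by
      intro i
      have := hz i
      rw [ha, map_smul, Finsupp.smul_apply, smul_eq_mul, norm_mul, norm_inv, norm_pCast,
        inv_mul_le_iff₀ (pow_pos qInv_pos _), ← pow_add, add_comm]
      exact this
    have hne := hb.one_add_ne_zero hak
    refine ⟨fun _ => Units.mk0 _ hne, fun _ => by simp [mem_deepUnits, hak], trivial, ?_⟩
    refine div_mem_deepUnits hb ((deepUnits hb 0).pow_mem
      (deepUnits_anti hb (Nat.zero_le k) (by simp [mem_deepUnits, hak])) p) ?_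
    have h := hb.pow_sub_mem hp2 hak
    have hpa : (p : E) * a = (z : E) - 1 := by
      rw [ha, Algebra.smul_def, map_inv₀, map_natCast, mul_inv_cancel_left₀]
      exact Nat.cast_ne_zero.mpr hp.out.ne_zero
    have e : (z : E) - ((F fun _ => Units.mk0 _ hne : Eˣ) : E) =
        -((1 + a) ^ p - 1 - (p : E) * a) := by
      show (z : E) - ((Units.mk0 _ hne ^ p : Eˣ) : E) = _
      rw [Units.val_pow_eq_pow_val, Units.val_mk0, hpa]
      ring
    rw [e]
    exact neg_mem h

include hp2 in
theorem GoodBasis.deepUnits_inf_ker_pow (hb : GoodBasis b) :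
    deepUnits hb 0 ⊓ (powMonoidHom p : Eˣ →* Eˣ).ker = ⊥ := by
  rw [eq_bot_iff]
  rintro x ⟨hx, hxp⟩
  refine Subgroup.mem_bot.mpr (eq_one_of_forall_mem_deepUnits hb fun k => ?_)
  induction k with
  | zero => exact hx
  | succ k ih =>
    rw [mem_deepUnits] at ih ⊢
    have h := hb.pow_sub_mem hp2 ih
    have hx1 : (x : E) ^ p = 1 := by
      have := congrArg Units.val (MonoidHom.mem_ker.mp hxp)
      simpa using this
    rw [show (1 : E) + ((x : E) - 1) = x by ring, hx1, sub_self, zero_sub, neg_mem_iff] at h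
    intro i
    have := h i
    rw [← map_natCast (algebraMap ℚ_[q] E) p, ← Algebra.smul_def, map_smul, Finsupp.smul_apply,
      smul_eq_mul, norm_mul, norm_pCast, show k + powShift q p + 1 = powShift q p + (k + 1) by ring,
      pow_add] at this
    exact le_of_mul_le_mul_left this (pow_pos qInv_pos _)

theorem toZMod_eq_zero_iff {x : ℤ_[q]} : PadicInt.toZMod x = 0 ↔ ‖(x : ℚ_[q])‖ ≤ qInv q := by
  rw [← RingHom.mem_ker, PadicInt.ker_toZMod, PadicInt.maximalIdeal_eq_span_p]
  have := PadicInt.norm_le_pow_iff_mem_span_pow x 1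
  rw [pow_one] at this
  rw [← this, ← PadicInt.norm_def]
  simp [qInv]

/-- Coordinates modulo `q` on the lattice. -/
def latMod (b : Basis ι ℚ_[q] E) : lat b 0 →+ (ι → ZMod q) :=
  AddMonoidHom.mk' (fun z i => PadicInt.toZMod ⟨b.repr (z : E) i, by simpa using z.2 i⟩)
    fun z w => funext fun i => by
      refine (congrArg PadicInt.toZMod (Subtype.ext ?_)).trans (map_add PadicInt.toZMod _ _)
      show b.repr ((z : E) + (w : E)) i = _
      rw [map_add]; rfl

omit [FiniteDimensional ℚ_[q] ↥E] [Fintype ι] in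
theorem latMod_eq_zero_iff {z : lat b 0} : latMod b z = 0 ↔ (z : E) ∈ lat b 1 := by
  rw [mem_lat, funext_iff]
  refine forall_congr' fun i => ?_
  rw [pow_one]
  exact toZMod_eq_zero_iff

omit [FiniteDimensional ℚ_[q] ↥E] in
theorem latMod_surjective : Function.Surjective (latMod b) := fun v => by
  classical
  set w : E := ∑ i, (((v i).val : ℕ) : ℚ_[q]) • b i with hw
  have hwk : w ∈ lat b 0 := fun i => by
    rw [hw, Basis.repr_sum_self, pow_zero]
    exact IsUltrametricDist.norm_natCast_le_one ℚ_[q] _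
  refine ⟨⟨w, hwk⟩, funext fun i => ?_⟩
  show PadicInt.toZMod ⟨b.repr w i, _⟩ = v i
  have e : (⟨b.repr w i, by simpa using hwk i⟩ : ℤ_[q]) = (((v i).val : ℕ) : ℤ_[q]) :=
    Subtype.ext (by
      show b.repr w i = _
      rw [hw, Basis.repr_sum_self, PadicInt.coe_natCast])
  rw [e, map_natCast, ZMod.natCast_zmod_val]

omit [FiniteDimensional ℚ_[q] ↥E] in
/-- `[L : q L] = q ^ d`. -/
theorem relIndex_lat_one : (lat b 1).relIndex (lat b 0) = q ^ Fintype.card ι := by
  classical
  have hker : (latMod b).ker = (lat b 1).addSubgroupOf (lat b 0) :=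
    AddSubgroup.ext fun z => latMod_eq_zero_iff
  have hr : (latMod b).range = ⊤ := AddMonoidHom.range_eq_top.mpr latMod_surjective
  rw [AddSubgroup.relIndex, ← hker, AddSubgroup.index_ker, hr]
  simp

/-- `[V₀ : V₁] = q ^ d`. -/
theorem relIndex_deepUnits_one (hb : GoodBasis b) :
    (deepUnits hb 1).relIndex (deepUnits hb 0) = q ^ Fintype.card ι := by
  classical
  let d : deepUnits hb 0 → lat b 0 := fun x => ⟨((x : Eˣ) : E) - 1, x.2⟩
  let φ : deepUnits hb 0 →* Multiplicative (ι → ZMod q) :=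
    MonoidHom.mk' (fun x => Multiplicative.ofAdd (latMod b (d x))) fun x y => by
      have h1 : (d x : E) * (d y : E) ∈ lat b 1 := hb.mul_mem (d x).2 (d y).2
      have hxy : d (x * y) = d x + d y + ⟨_, lat_anti b zero_le_one h1⟩ :=
        Subtype.ext (by simp only [d, Subgroup.coe_mul, Units.val_mul, AddSubgroup.coe_add]; ring)
      refine (congrArg Multiplicative.ofAdd ?_).trans (ofAdd_add _ _)
      rw [hxy, map_add (latMod b), map_add (latMod b),
        (latMod_eq_zero_iff (z := ⟨_, lat_anti b zero_le_one h1⟩)).mpr h1, add_zero]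
  have hker : φ.ker = (deepUnits hb 1).subgroupOf (deepUnits hb 0) :=
    Subgroup.ext fun x => ofAdd_eq_one.trans latMod_eq_zero_iff
  have hsurj : Function.Surjective φ := fun v => by
    obtain ⟨⟨w, hw⟩, e⟩ := latMod_surjective (b := b) (Multiplicative.toAdd v)
    have hne := hb.one_add_ne_zero hw
    refine ⟨⟨Units.mk0 _ hne, by simpa [mem_deepUnits] using hw⟩, ?_⟩
    rw [← ofAdd_toAdd v, ← e]
    exact congrArg (Multiplicative.ofAdd ∘ latMod b) (Subtype.ext (add_sub_cancel_left _ _))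
  rw [Subgroup.relIndex, ← hker, Subgroup.index_ker, MonoidHom.range_eq_top.mpr hsurj]
  simp

include hp2 in
/-- The index of the `p`-th powers. -/
theorem index_range_pow :
    (powMonoidHom p : Eˣ →* Eˣ).range.index =
      p * Nat.card (powMonoidHom p : Eˣ →* Eˣ).ker *
        (if q = p then p ^ finrank ℚ_[q] E else 1) := by
  obtain ⟨c, hc⟩ := exists_goodBasis_smul (Module.finBasis ℚ_[q] E)
  set b := (Module.finBasis ℚ_[q] E).unitsSMul fun _ => c
  set f : Eˣ →* Eˣ := powMonoidHom p with hf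
  have hker : (ord E).ker = unitGroup E := by
    ext x
    rw [MonoidHom.mem_ker, ord_eq_one_iff]
  have hkU : f.ker ≤ unitGroup E := fun x hx => by
    rw [← ord_eq_one_iff]
    refine (pow_eq_one_iff_left hp.out.ne_zero).mp ?_
    rw [← map_pow, show x ^ p = 1 from hx, map_one]
  have hV := relIndex_deepUnits_ne_zero hc 0
  have hVmap := hc.map_pow_deepUnits hp2 (p := p)
  have hVker := hc.deepUnits_inf_ker_pow hp2 (p := p)
  -- on the units
  have hUf : (unitGroup E).map f ≤ unitGroup E := by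
    rintro _ ⟨x, hx, rfl⟩
    exact pow_mem hx p
  have hU : ((unitGroup E).map f).relIndex (unitGroup E) =
      (deepUnits hc (powShift q p)).relIndex (deepUnits hc 0) * Nat.card f.ker := by
    have hle : deepUnits hc 0 ≤ unitGroup E := deepUnits_le_unitGroup hc
    have e := relIndex_eq_map_mul f hle
    rw [hVker, inf_eq_right.mpr hkU, Subgroup.relIndex_bot_left, hVmap] at e
    refine mul_left_cancel₀ (left_ne_zero_of_mul (e ▸ hV)) ?_
    rw [Subgroup.relIndex_mul_relIndex _ _ _ (hVmap ▸ Subgroup.map_mono hle) hUf,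
      ← Subgroup.relIndex_mul_relIndex _ _ _ (deepUnits_anti hc (Nat.zero_le _)) hle, e]
    ring
  have hrel : (deepUnits hc (powShift q p)).relIndex (deepUnits hc 0) =
      if q = p then p ^ finrank ℚ_[q] E else 1 := by
    unfold powShift
    split_ifs with h
    · rw [relIndex_deepUnits_one, Fintype.card_fin]
      exact congrArg (· ^ finrank ℚ_[q] E) h
    · exact Subgroup.relIndex_self _
  -- the value group
  have hRU := range_inf_unitGroup f hp.out.ne_zero (fun y => map_pow (ord E) y p) hUf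
  have hsup : (f.range ⊔ unitGroup E).index = p := by
    have h := Subgroup.index_map f.range (ord E)
    rw [hker, MonoidHom.range_eq_top.mpr (ord_surjective E), Subgroup.index_top, mul_one] at h
    rw [← h]
    have hR := map_range_ord_eq f p fun y => map_pow (ord E) y p
    rw [hR, relIndex_normHom_range.index_range_powMonoidHom_multiplicative_int]
  rw [← Subgroup.relIndex_mul_index (le_sup_left : f.range ≤ f.range ⊔ unitGroup E), hsup,
    Subgroup.relIndex_sup_left, ← Subgroup.inf_relIndex_right, hRU, hU, hrel]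
  ring

omit [FiniteDimensional ℚ_[q] ↥E] in
theorem card_ker_pow_of_primitive {ζ : E} (hζ : IsPrimitiveRoot ζ p) :
    Nat.card (powMonoidHom p : Eˣ →* Eˣ).ker = p := by
  have : NeZero p := ⟨hp.out.ne_zero⟩
  have : (powMonoidHom p : Eˣ →* Eˣ).ker = rootsOfUnity p E := by
    ext x; rfl
  rw [this, hζ.card_rootsOfUnity]

omit [FiniteDimensional ℚ_[q] ↥E] hp in
theorem card_ker_pow_of_forall (h : ∀ ζ : E, ζ ^ p = 1 → ζ = 1) :
    Nat.card (powMonoidHom p : Eˣ →* Eˣ).ker = 1 := by
  have : (powMonoidHom p : Eˣ →* Eˣ).ker = ⊥ := (Subgroup.eq_bot_iff_forall _).mpr fun x hx =>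
    Units.ext (h x (by simpa using congrArg Units.val (MonoidHom.mem_ker.mp hx)))
  rw [this, Subgroup.card_bot]

end Fermat.Agent.CFT.Local
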