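import Fermat.Agent.CFT.Local.ResidueCard

/-!
# Fixed fields

`fixedIn H` is the fixed field of `H` as a subfield of `PadicAlgCl q`; if `x` is fixed by `H`,
then `|H ⊓ inertia E|` divides the valuation of `x`.
-/

set_option autoImplicit false
set_option linter.style.haveILetI false

noncomputable section

namespace Fermat.Agent.CFT.Local

open Module Polynomial

variable {q : ℕ} [Fact q.Prime] {E : IntermediateField ℚ_[q] (PadicAlgCl q)}

/-- The fixed field of `H`, inside `PadicAlgCl q`. -/
def fixedIn (H : Subgroup (E ≃ₐ[ℚ_[q]] E)) : IntermediateField ℚ_[q] (PadicAlgCl q) :=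
  IntermediateField.lift (IntermediateField.fixedField H)

variable (H : Subgroup (E ≃ₐ[ℚ_[q]] E))

theorem fixedIn_le : fixedIn H ≤ E := IntermediateField.lift_le _

theorem mem_fixedIn {x : E} :
    (x : PadicAlgCl q) ∈ fixedIn H ↔ ∀ h ∈ H, h x = x :=
  (IntermediateField.mem_lift x).trans (IntermediateField.mem_fixedField_iff H x)

/-- The inclusion of the fixed field. -/
def fixedIncl : fixedIn H →ₐ[ℚ_[q]] E := IntermediateField.inclusion (fixedIn_le H)

theorem norm_fixedIncl (x : fixedIn H) : ‖fixedIncl H x‖ = ‖x‖ := rfl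

theorem fixedIncl_fixed (x : fixedIn H) {h : E ≃ₐ[ℚ_[q]] E} (hh : h ∈ H) :
    h (fixedIncl H x) = fixedIncl H x :=
  (mem_fixedIn H).mp x.2 h hh

theorem exists_fixedIncl_eq {x : E} (hx : ∀ h ∈ H, h x = x) : ∃ y, fixedIncl H y = x :=
  ⟨⟨x, (mem_fixedIn H).mpr hx⟩, rfl⟩

variable [FiniteDimensional ℚ_[q] E]

instance fixedIn_finite : FiniteDimensional ℚ_[q] (fixedIn H) :=
  (IntermediateField.liftAlgEquiv (IntermediateField.fixedField H)).toLinearEquiv.finiteDimensional

theorem finrank_fixedIn_mul :
    finrank ℚ_[q] (fixedIn H) * Nat.card H = finrank ℚ_[q] E := by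
  rw [fixedIn, ← IntermediateField.finrank_fixedField_eq_card H,
    ← (IntermediateField.liftAlgEquiv (IntermediateField.fixedField H)).toLinearEquiv.finrank_eq,
    Module.finrank_mul_finrank]

theorem resDeg_mul_ordZ_fixedIn (x : (fixedIn H)ˣ) :
    (resDeg E : ℤ) * ordZ E (Units.map (fixedIncl H).toRingHom.toMonoidHom x) =
      Nat.card H * ((resDeg (fixedIn H) : ℤ) * ordZ (fixedIn H) x) := by
  have h1 := norm_pow_eq_ordZ (fixedIn H) x
  have h2 := norm_pow_eq_ordZ E (Units.map (fixedIncl H).toRingHom.toMonoidHom x)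
  rw [← finrank_fixedIn_mul H, pow_mul] at h2
  change (‖(x : fixedIn H)‖ ^ _) ^ _ = _ at h2
  rw [h1, ← zpow_natCast, ← zpow_mul] at h2
  have h3 := zpow_inj_q h2
  linear_combination h3

/-- The map of residue fields. -/
def resIncl : ResField (fixedIn H) →+* ResField E :=
  Ideal.Quotient.lift _ ((resMap E).comp
    (((fixedIncl H).toRingHom.comp (intRing (fixedIn H)).subtype).codRestrict (intRing E)
      fun x => x.2)) fun x hx => by
    rw [RingHom.comp_apply, resMap_eq_zero_iff]
    exact hx

theorem resIncl_surjective (hH : H ≤ inertia E) : Function.Surjective (resIncl H) := by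
  classical
  haveI : Fintype H := Fintype.ofFinite H
  intro c
  obtain ⟨a, rfl⟩ := resMap_surjective E c
  set S : Subfield (ResField E) := (resIncl H).fieldRange with hS
  set P : (intRing E)[X] := ∏ h : H, (X - C (galInt (h : E ≃ₐ[ℚ_[q]] E) a)) with hP
  have hcoeff : ∀ i, resMap E (P.coeff i) ∈ S := by
    intro i
    have hfix : ∀ g ∈ H, g ((P.coeff i : intRing E) : E) = ((P.coeff i : intRing E) : E) := by
      intro g hg
      have : P.map (galInt g) = P := by
        rw [hP, Polynomial.map_prod]
        refine Fintype.prod_equiv (Equiv.mulLeft ⟨g, hg⟩) _ _ fun h => ?_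
        rw [Polynomial.map_sub, map_X, map_C]
        rfl
      conv_rhs => rw [← this, Polynomial.coeff_map]
      rfl
    obtain ⟨y, hy⟩ := exists_fixedIncl_eq H hfix
    refine ⟨resMap (fixedIn H) ⟨y, ?_⟩, ?_⟩
    · rw [mem_intRing, ← norm_fixedIncl H y, hy]; exact (P.coeff i).2
    · exact congrArg (resMap E) (Subtype.ext hy)
  have hmapP : P.map (resMap E) = (X - C (resMap E a)) ^ Fintype.card H := by
    rw [hP, Polynomial.map_prod, ← Finset.card_univ, ← Finset.prod_const]
    refine Finset.prod_congr rfl fun h _ => ?_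
    rw [Polynomial.map_sub, map_X, map_C, ← resAut_resMap,
      show resAut E (h : E ≃ₐ[ℚ_[q]] E) = 1 from hH h.2, AlgEquiv.one_apply]
  have hmem : resMap E a ∈ S := by
    obtain ⟨s, hs⟩ := (IsGalois.mem_range_algebraMap_iff_fixed (F := S) (E := ResField E)
      (resMap E a)).mpr fun τ => by
      have hτP : (P.map (resMap E)).map (τ : ResField E →+* ResField E) = P.map (resMap E) := by
        ext i
        rw [Polynomial.coeff_map, Polynomial.coeff_map]
        exact τ.commutes ⟨_, hcoeff i⟩
      have hroot := congrArg (Polynomial.eval (τ (resMap E a))) hτP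
      rw [hmapP, Polynomial.map_pow, Polynomial.map_sub, map_X, map_C, eval_pow, eval_pow] at hroot
      simp only [eval_sub, eval_X, eval_C] at hroot
      rw [show (τ : ResField E →+* ResField E) (resMap E a) = τ (resMap E a) from rfl, sub_self,
        zero_pow Fintype.card_ne_zero] at hroot
      exact sub_eq_zero.mp (eq_zero_of_pow_eq_zero hroot.symm)
    exact hs ▸ s.2
  exact hmem

theorem resDeg_fixedIn_of_le (hH : H ≤ inertia E) : resDeg (fixedIn H) = resDeg E := by
  refine Nat.pow_right_injective (Fact.out : q.Prime).two_le ?_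
  show q ^ resDeg (fixedIn H) = q ^ resDeg E
  rw [← card_resField, ← card_resField]
  exact Nat.card_eq_of_bijective (resIncl H)
    ⟨RingHom.injective _, resIncl_surjective H hH⟩

/-- The ramification index divides the valuation of an invariant element. -/
theorem card_inf_inertia_dvd_ordZ {x : Eˣ} (hx : x ∈ fixedUnits H) :
    (Nat.card (H ⊓ inertia E : Subgroup (E ≃ₐ[ℚ_[q]] E)) : ℤ) ∣ ordZ E x := by
  set J := H ⊓ inertia E
  have hfix : ∀ h ∈ J, h (x : E) = (x : E) := fun h hh =>
    congrArg Units.val (hx ⟨h, hh.1⟩)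
  obtain ⟨y, hy⟩ := exists_fixedIncl_eq J hfix
  have hy0 : y ≠ 0 := fun h => x.ne_zero (by rw [← hy, h, map_zero])
  have h := resDeg_mul_ordZ_fixedIn J (Units.mk0 y hy0)
  rw [resDeg_fixedIn_of_le J inf_le_right,
    show Units.map (fixedIncl J).toRingHom.toMonoidHom (Units.mk0 y hy0) = x from Units.ext hy,
    ← mul_assoc, mul_comm (Nat.card J : ℤ), mul_assoc] at h
  exact ⟨_, mul_left_cancel₀ (Int.natCast_ne_zero.mpr (resDeg_pos E).ne') h⟩

end Fermat.Agent.CFT.Local
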