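import Mathlib

/-!
# Finite extensions of `ℚ_[q]` inside `PadicAlgCl q`

Invariance of the norm, the normalised exponent `ordQ : Eˣ → ℤ` (`‖x‖ ^ d = q ^ (-ordQ x)`,
`d` the degree), the unit group and its compactness.
-/

set_option autoImplicit false

noncomputable section

namespace Fermat.Agent.CFT.Local

open Module

variable {q : ℕ} [Fact q.Prime] (E : IntermediateField ℚ_[q] (PadicAlgCl q))
  [FiniteDimensional ℚ_[q] E]

instance properSpace_field : ProperSpace E := FiniteDimensional.proper ℚ_[q] E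

omit [FiniteDimensional ℚ_[q] ↥E] in
/-- Conjugate elements have the same norm. -/
theorem norm_algEquiv (σ : E ≃ₐ[ℚ_[q]] E) (x : E) : ‖σ x‖ = ‖x‖ := by
  show ‖((σ x : E) : PadicAlgCl q)‖ = ‖(x : PadicAlgCl q)‖
  rw [← PadicAlgCl.spectralNorm_eq, ← PadicAlgCl.spectralNorm_eq,
    spectralNorm.spectralNorm_eq_norm_coeff_zero_rpow,
    spectralNorm.spectralNorm_eq_norm_coeff_zero_rpow,
    show minpoly ℚ_[q] ((σ x : E) : PadicAlgCl q) = minpoly ℚ_[q] (x : PadicAlgCl q) by
      exact (minpoly.algHom_eq E.val E.val.injective (σ x)).trans ((minpoly.algEquiv_eq σ x).trans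
        (minpoly.algHom_eq E.val E.val.injective x).symm)]

omit [FiniteDimensional ℚ_[q] ↥E] in
theorem exists_norm_pow_eq_zpow (x : E) (hx : x ≠ 0) :
    ∃ k : ℤ, ‖x‖ ^ finrank ℚ_[q] E = (q : ℝ) ^ k := by
  have hint : IsIntegral ℚ_[q] (x : E) := Algebra.IsIntegral.isIntegral x
  obtain ⟨e, he⟩ := minpoly.degree_dvd hint
  set f := minpoly ℚ_[q] x with hf
  have hc : f.coeff 0 ≠ 0 := minpoly.coeff_zero_ne_zero hint hx
  refine ⟨-(f.coeff 0).valuation * e, ?_⟩
  have hn : ‖x‖ ^ f.natDegree = ‖f.coeff 0‖ := by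
    show ‖(x : PadicAlgCl q)‖ ^ f.natDegree = _
    rw [← PadicAlgCl.spectralNorm_eq, spectralNorm.spectralNorm_eq_norm_coeff_zero_rpow,
      show minpoly ℚ_[q] (x : PadicAlgCl q) = f from minpoly.algHom_eq E.val E.val.injective x,
      ← Real.rpow_natCast, ← Real.rpow_mul (norm_nonneg _), one_div_mul_cancel
        (Nat.cast_ne_zero.mpr (minpoly.natDegree_pos hint).ne'), Real.rpow_one]
  rw [he, pow_mul, hn, Padic.norm_eq_zpow_neg_valuation hc, ← zpow_natCast, ← zpow_mul]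

/-- The exponent of `‖x‖ ^ d` in base `1 / q`. -/
def ordQFun (x : Eˣ) : ℤ := -(exists_norm_pow_eq_zpow E (x : E) x.ne_zero).choose

omit [FiniteDimensional ℚ_[q] ↥E] in
theorem norm_pow_eq (x : Eˣ) : ‖(x : E)‖ ^ finrank ℚ_[q] E = (q : ℝ) ^ (-ordQFun E x) := by
  rw [ordQFun, neg_neg]
  exact (exists_norm_pow_eq_zpow E (x : E) x.ne_zero).choose_spec

theorem zpow_inj_q {a b : ℤ} (h : (q : ℝ) ^ a = (q : ℝ) ^ b) : a = b :=
  zpow_right_injective₀ (Nat.cast_pos.mpr (Fact.out : q.Prime).pos)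
    (by exact_mod_cast (Fact.out : q.Prime).ne_one) h

/-- The exponent as a homomorphism. -/
def ordQ : Eˣ →* Multiplicative ℤ where
  toFun x := Multiplicative.ofAdd (ordQFun E x)
  map_one' := by
    have h := norm_pow_eq E 1
    rw [Units.val_one, norm_one, one_pow, ← zpow_zero (q : ℝ)] at h
    rw [neg_eq_zero.mp (zpow_inj_q h).symm]; rfl
  map_mul' x y := by
    have h := norm_pow_eq E (x * y)
    rw [Units.val_mul, norm_mul, mul_pow, norm_pow_eq, norm_pow_eq,
      ← zpow_add₀ (Nat.cast_ne_zero.mpr (Fact.out : q.Prime).ne_zero)] at h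
    rw [← ofAdd_add]
    exact congrArg Multiplicative.ofAdd (by have := zpow_inj_q h; omega)

/-- The unit group of `E`. -/
def unitGroup : Subgroup Eˣ := (ordQ E).ker

theorem mem_unitGroup {x : Eˣ} : x ∈ unitGroup E ↔ ‖(x : E)‖ = 1 := by
  have hd : finrank ℚ_[q] E ≠ 0 := Module.finrank_pos.ne'
  rw [unitGroup, MonoidHom.mem_ker]
  constructor
  · intro h
    have h' : ordQFun E x = 0 := congrArg Multiplicative.toAdd h
    have := norm_pow_eq E x
    rw [h', neg_zero, zpow_zero] at this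
    exact (pow_eq_one_iff_of_nonneg (norm_nonneg _) hd).mp this
  · intro h
    have := norm_pow_eq E x
    rw [h, one_pow, ← zpow_zero (q : ℝ)] at this
    show Multiplicative.ofAdd (ordQFun E x) = 1
    rw [neg_eq_zero.mp (zpow_inj_q this).symm]; rfl

omit [FiniteDimensional ℚ_[q] ↥E] in
theorem ordQ_algEquiv (σ : E ≃ₐ[ℚ_[q]] E) (x : Eˣ) :
    ordQ E (Units.map σ.toRingEquiv.toRingHom.toMonoidHom x) = ordQ E x := by
  have h := norm_pow_eq E (Units.map σ.toRingEquiv.toRingHom.toMonoidHom x)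
  rw [show ((Units.map σ.toRingEquiv.toRingHom.toMonoidHom x : Eˣ) : E) = σ (x : E) from rfl,
    norm_algEquiv E σ, norm_pow_eq] at h
  exact congrArg Multiplicative.ofAdd (neg_injective (zpow_inj_q h)).symm

omit [FiniteDimensional ℚ_[q] ↥E] in
theorem ordQ_natCast_self : ordQ E (Units.mk0 (q : E)
    (Nat.cast_ne_zero.mpr (Fact.out : q.Prime).ne_zero)) =
      Multiplicative.ofAdd (finrank ℚ_[q] E : ℤ) := by
  have h := norm_pow_eq E (Units.mk0 (q : E) (Nat.cast_ne_zero.mpr (Fact.out : q.Prime).ne_zero))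
  have hq : ‖(q : E)‖ = (q : ℝ)⁻¹ := by
    rw [← map_natCast (algebraMap ℚ_[q] E) q, norm_algebraMap', Padic.norm_p]
  rw [Units.val_mk0, hq, ← zpow_natCast, inv_zpow'] at h
  exact congrArg Multiplicative.ofAdd (neg_injective (zpow_inj_q h)).symm

theorem exists_ord_unit : ∃ f : ℕ, 0 < f ∧ (f ∣ finrank ℚ_[q] E) ∧
    (∀ x, (f : ℤ) ∣ ordQFun E x) ∧ ∃ x, ordQFun E x = f := by
  classical
  have hd : 0 < finrank ℚ_[q] E := Module.finrank_pos
  let S : AddSubgroup ℤ :=
    { carrier := Set.range (ordQFun E)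
      zero_mem' := ⟨1, congrArg Multiplicative.toAdd (map_one (ordQ E))⟩
      add_mem' := by
        rintro _ _ ⟨x, rfl⟩ ⟨y, rfl⟩
        exact ⟨x * y, congrArg Multiplicative.toAdd (map_mul (ordQ E) x y)⟩
      neg_mem' := by
        rintro _ ⟨x, rfl⟩
        exact ⟨x⁻¹, congrArg Multiplicative.toAdd (map_inv (ordQ E) x)⟩ }
  obtain ⟨g, hg⟩ := (Int.subgroup_cyclic S)
  have hS : ∀ n, n ∈ S ↔ g ∣ n := fun n => by
    rw [hg, AddSubgroup.mem_closure_singleton]
    exact ⟨fun ⟨k, hk⟩ => ⟨k, by rw [← hk, smul_eq_mul, mul_comm]⟩,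
      fun ⟨k, hk⟩ => ⟨k, by rw [hk, smul_eq_mul, mul_comm]⟩⟩
  have hdS : (finrank ℚ_[q] E : ℤ) ∈ S :=
    ⟨_, congrArg Multiplicative.toAdd (ordQ_natCast_self E)⟩
  have hg0 : g ≠ 0 := fun h => by
    have := (hS _).mp hdS
    rw [h, zero_dvd_iff] at this
    omega
  refine ⟨g.natAbs, Int.natAbs_pos.mpr hg0, ?_, fun x => ?_, ?_⟩
  · exact Int.natCast_dvd_natCast.mp (Int.natAbs_dvd.mpr ((hS _).mp hdS))
  · exact Int.natAbs_dvd.mpr ((hS _).mp ⟨x, rfl⟩)
  · exact (hS _).mpr (Int.dvd_natAbs.mpr dvd_rfl)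

/-- The residue degree: the generator of the image of `ordQ`. -/
def resDeg : ℕ := (exists_ord_unit E).choose

theorem resDeg_pos : 0 < resDeg E := (exists_ord_unit E).choose_spec.1

theorem resDeg_dvd_finrank : resDeg E ∣ finrank ℚ_[q] E := (exists_ord_unit E).choose_spec.2.1

theorem resDeg_dvd_ordQFun (x : Eˣ) : (resDeg E : ℤ) ∣ ordQFun E x :=
  (exists_ord_unit E).choose_spec.2.2.1 x

/-- The normalised valuation of `E`. -/
def ord : Eˣ →* Multiplicative ℤ where
  toFun x := Multiplicative.ofAdd (ordQFun E x / resDeg E)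
  map_one' := by
    rw [show ordQFun E 1 = 0 from congrArg Multiplicative.toAdd (map_one (ordQ E)), Int.zero_ediv]
    rfl
  map_mul' x y := by
    rw [show ordQFun E (x * y) = ordQFun E x + ordQFun E y from
      congrArg Multiplicative.toAdd (map_mul (ordQ E) x y),
      Int.add_ediv_of_dvd_left (resDeg_dvd_ordQFun E x), ← ofAdd_add]

theorem ordQFun_eq (x : Eˣ) :
    ordQFun E x = resDeg E * Multiplicative.toAdd (ord E x) :=
  (Int.mul_ediv_cancel' (resDeg_dvd_ordQFun E x)).symm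

theorem ord_surjective : Function.Surjective (ord E) := by
  obtain ⟨x, hx⟩ := (exists_ord_unit E).choose_spec.2.2.2
  have h1 : ord E x = Multiplicative.ofAdd 1 := by
    apply Multiplicative.toAdd.injective
    have := ordQFun_eq E x
    change ordQFun E x = (resDeg E : ℤ) at hx
    rw [hx] at this
    exact (mul_eq_left₀ (Int.natCast_ne_zero.mpr (resDeg_pos E).ne')).mp this.symm
  intro n
  refine ⟨x ^ Multiplicative.toAdd n, ?_⟩
  rw [map_zpow, h1, ← ofAdd_zsmul, smul_eq_mul, mul_one, ofAdd_toAdd]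

theorem ord_eq_one_iff {x : Eˣ} : ord E x = 1 ↔ x ∈ unitGroup E := by
  rw [unitGroup, MonoidHom.mem_ker]
  constructor
  · intro h
    show Multiplicative.ofAdd (ordQFun E x) = 1
    rw [ordQFun_eq E x, h, toAdd_one, mul_zero]
    rfl
  · intro h
    show Multiplicative.ofAdd (ordQFun E x / resDeg E) = 1
    rw [show ordQFun E x = 0 from congrArg Multiplicative.toAdd h, Int.zero_ediv]
    rfl

theorem ord_algEquiv (σ : E ≃ₐ[ℚ_[q]] E) (x : Eˣ) :
    ord E (Units.map σ.toRingEquiv.toRingHom.toMonoidHom x) = ord E x :=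
  congrArg (fun n => Multiplicative.ofAdd (Multiplicative.toAdd n / (resDeg E : ℤ)))
    (ordQ_algEquiv E σ x)

end Fermat.Agent.CFT.Local
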