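import Fermat.Agent.CFT.Coh.Basic
import Fermat.Agent.CFT.Local.Field

/-!
# The Galois module `Additive Eˣ` and Hilbert 90 for subgroups
-/

set_option autoImplicit false

noncomputable section

namespace Fermat.Agent.CFT.Local

open groupCohomology

section Action

variable {k L : Type*} [Field k] [Field L] [Algebra k L]

/-- Shortcut instance. -/
instance galUnitsMulAction : MulDistribMulAction (L ≃ₐ[k] L) Lˣ := inferInstance

/-- Shortcut instance. -/
instance galUnitsSMul : SMul (L ≃ₐ[k] L) Lˣ := galUnitsMulAction.toMulAction.toSMul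

/-- Shortcut instance. -/
instance galUnitsMulActionShort : MulAction (L ≃ₐ[k] L) Lˣ := galUnitsMulAction.toMulAction

/-- The Galois action on the units of a field, additively written. -/
instance galUnitsAction : DistribMulAction (L ≃ₐ[k] L) (Additive Lˣ) where
  smul σ a := Additive.ofMul (σ • a.toMul)
  one_smul a := congrArg Additive.ofMul (one_smul (L ≃ₐ[k] L) a.toMul)
  mul_smul σ τ a := congrArg Additive.ofMul (mul_smul σ τ a.toMul)
  smul_zero σ := congrArg Additive.ofMul (smul_one σ)
  smul_add σ a b := congrArg Additive.ofMul (smul_mul' σ a.toMul b.toMul)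

/-- Hilbert 90 for a finite group of automorphisms. -/
theorem h1Zero_units (H : Subgroup (L ≃ₐ[k] L)) [Finite H] : H1Zero H (Additive Lˣ) := by
  intro c hc
  let e := FixedPoints.toAlgAutMulEquiv H L
  have he : ∀ (g : H) (u : Lˣ), e g • u = (g : L ≃ₐ[k] L) • u := fun g u => Units.ext rfl
  obtain ⟨β, hβ⟩ := groupCohomology.isMulCoboundary₁_of_isMulCocycle₁_of_aut_to_units
    (fun σ => (c (e.symm σ)).toMul) fun σ τ => by
      obtain ⟨a, rfl⟩ := e.surjective σ
      obtain ⟨b, rfl⟩ := e.surjective τ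
      simp only
      rw [← map_mul, e.symm_apply_apply, e.symm_apply_apply, e.symm_apply_apply, hc a b, he]
      rfl
  refine ⟨Additive.ofMul β, fun g => Additive.toMul.injective ?_⟩
  have h := hβ (e g)
  simp only at h
  rw [he, e.symm_apply_apply] at h
  exact h

end Action

variable {q : ℕ} [Fact q.Prime] {E : IntermediateField ℚ_[q] (PadicAlgCl q)}
  [FiniteDimensional ℚ_[q] E]

omit [FiniteDimensional ℚ_[q] ↥E] in
theorem norm_smul_unit (σ : E ≃ₐ[ℚ_[q]] E) (x : Eˣ) : ‖((σ • x : Eˣ) : E)‖ = ‖(x : E)‖ :=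
  norm_algEquiv E σ x

theorem smul_mem_unitGroup_iff (σ : E ≃ₐ[ℚ_[q]] E) (x : Eˣ) :
    σ • x ∈ unitGroup E ↔ x ∈ unitGroup E := by
  rw [mem_unitGroup, mem_unitGroup, norm_smul_unit]

theorem ord_smul_unit (σ : E ≃ₐ[ℚ_[q]] E) (x : Eˣ) : ord E (σ • x) = ord E x :=
  ord_algEquiv E σ x

end Fermat.Agent.CFT.Local
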