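import Fermat.Agent.CFT.Local.Units

/-!
# Deep units: filtrations by lattices, successive approximation, normal basis lattices
-/

set_option autoImplicit false

noncomputable section

namespace Fermat.Agent.CFT.Local

open Module Filter Topology

variable {q : ℕ} [Fact q.Prime] {E : IntermediateField ℚ_[q] (PadicAlgCl q)}

/-- The step of the filtration. -/
def qInv (q : ℕ) : ℝ := (q : ℝ)⁻¹

theorem qInv_pos : 0 < qInv q := inv_pos.mpr (Nat.cast_pos.mpr (Fact.out : q.Prime).pos)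

theorem qInv_lt_one : qInv q < 1 :=
  inv_lt_one_of_one_lt₀ (Nat.one_lt_cast.mpr (Fact.out : q.Prime).one_lt)

theorem qInv_pow_le {a b : ℕ} (h : a ≤ b) : qInv q ^ b ≤ qInv q ^ a :=
  pow_le_pow_of_le_one qInv_pos.le qInv_lt_one.le h

theorem norm_sum_le_of_forall_le_padic {ι : Type*} (s : Finset ι) (f : ι → ℚ_[q]) {C : ℝ}
    (hC : 0 ≤ C) (h : ∀ i ∈ s, ‖f i‖ ≤ C) : ‖∑ i ∈ s, f i‖ ≤ C :=
  IsUltrametricDist.norm_sum_le_of_forall_le_of_nonneg hC h

variable {ι : Type*} (b : Basis ι ℚ_[q] E)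

/-- The lattice `q ^ k Λ`. -/
def lat (k : ℕ) : AddSubgroup E where
  carrier := {x | ∀ i, ‖b.repr x i‖ ≤ qInv q ^ k}
  zero_mem' i := by simp [qInv_pos.le]
  add_mem' {x y} hx hy i := by
    rw [map_add, Finsupp.add_apply]
    exact (IsUltrametricDist.norm_add_le_max _ _).trans (max_le (hx i) (hy i))
  neg_mem' {x} hx i := by
    rw [map_neg, Finsupp.neg_apply, norm_neg]; exact hx i

theorem mem_lat {k : ℕ} {x : E} : x ∈ lat b k ↔ ∀ i, ‖b.repr x i‖ ≤ qInv q ^ k := Iff.rfl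

theorem lat_anti {a c : ℕ} (h : a ≤ c) : lat b c ≤ lat b a :=
  fun _ hx i => (hx i).trans (qInv_pow_le h)

/-- Structure constants divisible by `q`. -/
def GoodBasis : Prop := ∀ i j k, ‖b.repr (b i * b j) k‖ ≤ qInv q

variable [Fintype ι]

variable {b} in
theorem GoodBasis.mul_mem (hb : GoodBasis b) {k l : ℕ} {x y : E} (hx : x ∈ lat b k)
    (hy : y ∈ lat b l) : x * y ∈ lat b (k + l + 1) := by
  intro m
  rw [← b.sum_repr x, ← b.sum_repr y, Finset.sum_mul_sum]
  simp only [map_sum, Finsupp.coe_finsetSum, Finset.sum_apply, smul_mul_smul_comm, map_smul,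
    Finsupp.smul_apply, smul_eq_mul]
  refine norm_sum_le_of_forall_le_padic _ _ (pow_nonneg qInv_pos.le _) fun i _ =>
    norm_sum_le_of_forall_le_padic _ _ (pow_nonneg qInv_pos.le _) fun j _ => ?_
  rw [norm_mul, norm_mul, pow_succ, pow_add]
  exact mul_le_mul (mul_le_mul (hx i) (hy j) (norm_nonneg _) (pow_nonneg qInv_pos.le _))
    (hb i j m) (norm_nonneg _)
    (mul_nonneg (pow_nonneg qInv_pos.le _) (pow_nonneg qInv_pos.le _))

theorem exists_norm_le_of_mem_lat :
    ∃ C : ℝ, 0 ≤ C ∧ ∀ k, ∀ x ∈ lat b k, ‖x‖ ≤ C * qInv q ^ k := by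
  refine ⟨∑ i, ‖b i‖, Finset.sum_nonneg fun i _ => norm_nonneg _, fun k x hx => ?_⟩
  conv_lhs => rw [← b.sum_repr x]
  refine (norm_sum_le _ _).trans ?_
  rw [Finset.sum_mul]
  refine Finset.sum_le_sum fun i _ => ?_
  rw [norm_smul, mul_comm]
  exact mul_le_mul_of_nonneg_left (hx i) (norm_nonneg _)

theorem eq_zero_of_forall_mem_lat {x : E} (h : ∀ k, x ∈ lat b k) : x = 0 := by
  obtain ⟨C, -, hC⟩ := exists_norm_le_of_mem_lat b
  have ht : Tendsto (fun n : ℕ => C * qInv q ^ n) atTop (𝓝 0) := by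
    simpa using (tendsto_pow_atTop_nhds_zero_of_lt_one qInv_pos.le (qInv_lt_one (q := q))).const_mul C
  exact norm_le_zero_iff.mp (ge_of_tendsto' ht fun k => hC k x (h k))

variable [FiniteDimensional ℚ_[q] E]

omit [Fintype ι] in
theorem continuous_coord (i : ι) : Continuous fun x : E => b.repr x i :=
  (b.coord i).continuous_of_finiteDimensional

omit [Fintype ι] in
theorem isClosed_lat (k : ℕ) : IsClosed (lat b k : Set E) := by
  have : (lat b k : Set E) = ⋂ i, {x | ‖b.repr x i‖ ≤ qInv q ^ k} := by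
    ext x; simp [mem_lat]
  rw [this]
  exact isClosed_iInter fun i => isClosed_le (continuous_coord b i).norm continuous_const

theorem lat_mem_nhds_zero (k : ℕ) : (lat b k : Set E) ∈ 𝓝 (0 : E) := by
  have : (lat b k : Set E) = ⋂ i, {x | ‖b.repr x i‖ ≤ qInv q ^ k} := by
    ext x; simp [mem_lat]
  rw [this]
  refine Filter.iInter_mem.mpr fun i => ?_
  refine Filter.mem_of_superset (((continuous_coord b i).norm).continuousAt.preimage_mem_nhds
    (Iio_mem_nhds (show ‖b.repr (0 : E) i‖ < qInv q ^ k by simp [qInv_pos]))) ?_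
  intro x hx
  exact le_of_lt (Set.mem_Iio.mp (Set.mem_preimage.mp hx))

variable {b}

omit [FiniteDimensional ℚ_[q] ↥E] in
theorem GoodBasis.pow_mem (hb : GoodBasis b) {k : ℕ} {x : E} (hx : x ∈ lat b k) (n : ℕ) :
    x ^ (n + 1) ∈ lat b (k + n) := by
  induction n with
  | zero => simpa using hx
  | succ n ih =>
    rw [pow_succ]
    exact lat_anti b (by omega) (hb.mul_mem ih hx)

omit [FiniteDimensional ℚ_[q] ↥E] in
theorem GoodBasis.norm_lt_one (hb : GoodBasis b) {x : E} (hx : x ∈ lat b 0) : ‖x‖ < 1 := by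
  obtain ⟨C, -, hC⟩ := exists_norm_le_of_mem_lat b
  by_contra h
  have h1 : ∀ n, (1 : ℝ) ≤ C * qInv q ^ n := fun n => by
    refine le_trans ?_ (hC n _ (by simpa using hb.pow_mem hx n))
    rw [norm_pow]
    exact one_le_pow₀ (not_lt.mp h)
  have ht : Tendsto (fun n : ℕ => C * qInv q ^ n) atTop (𝓝 0) := by
    simpa using (tendsto_pow_atTop_nhds_zero_of_lt_one qInv_pos.le (qInv_lt_one (q := q))).const_mul C
  linarith [ge_of_tendsto' ht h1]

omit [FiniteDimensional ℚ_[q] ↥E] in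
theorem GoodBasis.norm_one_add (hb : GoodBasis b) {x : E} (hx : x - 1 ∈ lat b 0) : ‖x‖ = 1 := by
  have h := hb.norm_lt_one hx
  have e : x = 1 + (x - 1) := by ring
  rw [e, IsUltrametricDist.norm_add_eq_max_of_norm_ne_norm (by rw [norm_one]; exact h.ne'),
    norm_one, max_eq_left h.le]

omit [FiniteDimensional ℚ_[q] ↥E] in
theorem GoodBasis.one_add_ne_zero (hb : GoodBasis b) {k : ℕ} {a : E} (ha : a ∈ lat b k) :
    1 + a ≠ 0 := fun h0 => by
  have := hb.norm_one_add (x := 1 + a)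
    (by rw [add_sub_cancel_left]; exact lat_anti _ (Nat.zero_le k) ha)
  rw [h0, norm_zero] at this
  exact zero_ne_one this

omit [FiniteDimensional ℚ_[q] ↥E] in
theorem GoodBasis.mul_sub_one_mem (hb : GoodBasis b) {k : ℕ} {x y : E} (hx : x - 1 ∈ lat b k)
    (hy : y - 1 ∈ lat b k) : x * y - 1 ∈ lat b k := by
  have e : x * y - 1 = (x - 1) * (y - 1) + ((x - 1) + (y - 1)) := by ring
  rw [e]
  exact add_mem (lat_anti b (by omega) (hb.mul_mem hx hy)) (add_mem hx hy)

theorem GoodBasis.inv_sub_one_mem (hb : GoodBasis b) {k : ℕ} {x : E} (hx : x - 1 ∈ lat b k) :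
    x⁻¹ - 1 ∈ lat b k := by
  set w := -(x - 1) with hw
  have hwk : w ∈ lat b k := neg_mem hx
  have hn := hb.norm_lt_one (lat_anti b (Nat.zero_le k) hwk)
  have hs : HasSum (fun n : ℕ => w ^ n) (1 - w)⁻¹ := hasSum_geometric_of_norm_lt_one hn
  rw [show (1 : E) - w = x by rw [hw]; ring] at hs
  refine (isClosed_lat b k).mem_of_tendsto ((hs.tendsto_sum_nat.sub_const 1).comp
    (tendsto_add_atTop_nat 1)) (Eventually.of_forall fun n => ?_)
  show (∑ i ∈ Finset.range (n + 1), w ^ i) - 1 ∈ lat b k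
  rw [Finset.sum_range_succ', pow_zero, add_sub_cancel_right]
  exact AddSubgroup.sum_mem _ fun i _ => lat_anti b (Nat.le_add_right k i) (hb.pow_mem hwk i)

/-- The units congruent to `1` modulo `q ^ k Λ`. -/
def deepUnits (hb : GoodBasis b) (k : ℕ) : Subgroup Eˣ where
  carrier := {x | (x : E) - 1 ∈ lat b k}
  one_mem' := by simp
  mul_mem' hx hy := by
    simp only [Set.mem_ofPred_eq, Units.val_mul] at hx hy ⊢
    exact hb.mul_sub_one_mem hx hy
  inv_mem' {x} hx := by
    simp only [Set.mem_ofPred_eq, Units.val_inv_eq_inv_val] at hx ⊢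
    exact hb.inv_sub_one_mem hx

theorem mem_deepUnits {hb : GoodBasis b} {k : ℕ} {x : Eˣ} :
    x ∈ deepUnits hb k ↔ (x : E) - 1 ∈ lat b k := Iff.rfl

theorem deepUnits_anti (hb : GoodBasis b) {a c : ℕ} (h : a ≤ c) :
    deepUnits hb c ≤ deepUnits hb a := fun _ hx => lat_anti b h hx

theorem deepUnits_le_unitGroup (hb : GoodBasis b) : deepUnits hb 0 ≤ unitGroup E :=
  fun _ hx => (mem_unitGroup E).mpr (hb.norm_one_add hx)

theorem eq_one_of_forall_mem_deepUnits (hb : GoodBasis b) {x : Eˣ}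
    (h : ∀ k, x ∈ deepUnits hb k) : x = 1 :=
  Units.ext (sub_eq_zero.mp (eq_zero_of_forall_mem_lat b h))

/-- Two deep units are congruent modulo a deeper lattice iff their quotient is deeper. -/
theorem div_mem_deepUnits (hb : GoodBasis b) {x y : Eˣ} {k : ℕ} (hy : y ∈ deepUnits hb 0)
    (h : (x : E) - y ∈ lat b k) : x / y ∈ deepUnits hb k := by
  rw [mem_deepUnits, Units.val_div_eq_div_val]
  have hi : (y : E)⁻¹ - 1 ∈ lat b 0 := hb.inv_sub_one_mem hy
  have e : (x : E) / y - 1 = ((x : E) - y) + ((x : E) - y) * ((y : E)⁻¹ - 1) := by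
    field_simp
    ring
  rw [e]
  exact add_mem h (lat_anti b (by omega) (hb.mul_mem h hi))

omit [FiniteDimensional ℚ_[q] ↥E] in
theorem GoodBasis.prod_congr_mem {κ : Type*} (hb : GoodBasis b) (s : Finset κ) {k : ℕ}
    (y a : κ → E) (hy : ∀ i ∈ s, y i - 1 ∈ lat b k)
    (ha : ∀ i ∈ s, y i - 1 - a i ∈ lat b (k + 1)) :
    (∏ i ∈ s, y i) - 1 ∈ lat b k ∧ (∏ i ∈ s, y i) - 1 - ∑ i ∈ s, a i ∈ lat b (k + 1) := by
  classical
  induction s using Finset.induction_on with
  | empty => simp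
  | insert i s his ih =>
    obtain ⟨h1, h2⟩ := ih (fun j hj => hy j (Finset.mem_insert_of_mem hj))
      (fun j hj => ha j (Finset.mem_insert_of_mem hj))
    have hi1 := hy i (Finset.mem_insert_self i s)
    rw [Finset.prod_insert his, Finset.sum_insert his]
    refine ⟨hb.mul_sub_one_mem hi1 h1, ?_⟩
    have e : y i * ∏ j ∈ s, y j - 1 - (a i + ∑ j ∈ s, a j) =
        (y i - 1 - a i) + ((∏ j ∈ s, y j) - 1 - ∑ j ∈ s, a j)
          + (y i - 1) * ((∏ j ∈ s, y j) - 1) := by ring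
    rw [e]
    exact add_mem (add_mem (ha i (Finset.mem_insert_self i s)) h2)
      (lat_anti b (by omega) (hb.mul_mem hi1 h1))

/-- Successive approximation in the deep units. -/
theorem exists_preimage_of_approx (hb : GoodBasis b) {κ : Type*} [Finite κ]
    (F : (κ → Eˣ) →* Eˣ) (C : Subgroup Eˣ) (s : ℕ)
    (hF : ∀ n f, (∀ i, f i ∈ deepUnits hb n) → F f ∈ deepUnits hb n)
    (hstep : ∀ k, ∀ x ∈ C, x ∈ deepUnits hb (k + s) → ∃ f : κ → Eˣ,
      (∀ i, f i ∈ deepUnits hb k) ∧ x / F f ∈ C ∧ x / F f ∈ deepUnits hb (k + s + 1))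
    {x : Eˣ} (hxC : x ∈ C) (hx : x ∈ deepUnits hb s) :
    ∃ f : κ → Eˣ, (∀ i, f i ∈ deepUnits hb 0) ∧ F f = x := by
  classical
  choose! step hstep₁ hstep₂ hstep₃ using hstep
  let P : ℕ → κ → Eˣ := fun n => n.rec (fun _ => 1) (fun m Pm => Pm * step m (x / F Pm))
  have hP0 : P 0 = fun _ => 1 := rfl
  have hPs : ∀ n, P (n + 1) = P n * step n (x / F (P n)) := fun _ => rfl
  have hinv : ∀ n, x / F (P n) ∈ C ∧ x / F (P n) ∈ deepUnits hb (n + s) := by
    intro n
    induction n with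
    | zero =>
      rw [hP0, show (fun _ : κ => (1 : Eˣ)) = 1 from rfl, map_one, div_one, zero_add]
      exact ⟨hxC, hx⟩
    | succ n ih =>
      have e : x / F (P (n + 1)) = (x / F (P n)) / F (step n (x / F (P n))) := by
        rw [hPs, map_mul, div_div]
      rw [e, Nat.add_right_comm]
      exact ⟨hstep₂ n _ ih.1 ih.2, hstep₃ n _ ih.1 ih.2⟩
  have hstepmem : ∀ n i, step n (x / F (P n)) i ∈ deepUnits hb n := fun n =>
    hstep₁ n _ (hinv n).1 (hinv n).2
  have htail : ∀ m n, m ≤ n → ∀ i, P n i / P m i ∈ deepUnits hb m := by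
    intro m n hmn i
    induction n, hmn using Nat.le_induction with
    | base => rw [div_self']; exact one_mem _
    | succ n hmn ih =>
      rw [hPs, Pi.mul_apply, mul_div_right_comm]
      exact mul_mem ih (deepUnits_anti hb hmn (hstepmem n i))
  have hP00 : ∀ n i, P n i ∈ deepUnits hb 0 := fun n i => by
    have := htail 0 n (Nat.zero_le n) i
    rwa [hP0, div_one] at this
  obtain ⟨C₀, -, hC₀⟩ := exists_norm_le_of_mem_lat b
  have hlim : ∀ i, ∃ l : E, Tendsto (fun n : ℕ => Units.val (P n i)) atTop (𝓝 l) := by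
    intro i
    refine cauchySeq_tendsto_of_complete (cauchySeq_of_le_geometric (qInv q) C₀
      (qInv_lt_one) fun n => ?_)
    rw [dist_comm, dist_eq_norm, hPs, Pi.mul_apply, Units.val_mul]
    rw [← mul_sub_one, norm_mul,
      (mem_unitGroup E).mp (deepUnits_le_unitGroup hb (hP00 n i)), one_mul]
    exact hC₀ n _ (hstepmem n i)
  choose l hl using hlim
  have hlmem : ∀ m i, l i / Units.val (P m i) - 1 ∈ lat b m := by
    intro m i
    refine (isClosed_lat b m).mem_of_tendsto (((hl i).div_const _).sub_const 1)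
      (eventually_atTop.mpr ⟨m, fun n hn => ?_⟩)
    have := htail m n hn i
    rwa [mem_deepUnits, Units.val_div_eq_div_val] at this
  have hl0 : ∀ i, l i ≠ 0 := by
    intro i h0
    have := hlmem 0 i
    rw [h0, zero_div, zero_sub] at this
    have h1 := hb.norm_lt_one (neg_mem this)
    rw [neg_neg, norm_one] at h1
    exact lt_irrefl _ h1
  set L : κ → Eˣ := fun i => Units.mk0 (l i) (hl0 i) with hL
  have hLP : ∀ m i, L i / P m i ∈ deepUnits hb m := fun m i => by
    rw [mem_deepUnits, Units.val_div_eq_div_val, hL, Units.val_mk0]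
    exact hlmem m i
  refine ⟨L, fun i => ?_, ?_⟩
  · have := hLP 0 i
    rwa [hP0, div_one] at this
  · refine (div_eq_one.mp (eq_one_of_forall_mem_deepUnits hb fun m => ?_)).symm
    have e : x / F L = (x / F (P m)) / F (fun i => L i / P m i) := by
      rw [div_div, ← map_mul]
      congr 2
      funext i
      simp
    rw [e]
    exact div_mem (deepUnits_anti hb (Nat.le_add_right m s) (hinv m).2) (hF m _ (hLP m))

omit [FiniteDimensional ℚ_[q] ↥E] in
theorem exists_goodBasis_smul {ι : Type*} [Fintype ι] (b₀ : Basis ι ℚ_[q] E) :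
    ∃ (c : ℚ_[q]ˣ), GoodBasis (b₀.unitsSMul fun _ => c) := by
  classical
  obtain ⟨C, hC⟩ := (Finset.univ.image fun x : ι × ι × ι =>
    ‖b₀.repr (b₀ x.1 * b₀ x.2.1) x.2.2‖).bddAbove
  obtain ⟨n, hn⟩ := exists_pow_lt_of_lt_one
    (show 0 < qInv q / (|C| + 1) by have := abs_nonneg C; exact div_pos qInv_pos (by linarith))
    (qInv_lt_one (q := q))
  refine ⟨Units.mk0 ((q : ℚ_[q]) ^ n)
    (pow_ne_zero n (Nat.cast_ne_zero.mpr (Fact.out : q.Prime).ne_zero)), fun i j k => ?_⟩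
  set c : ℚ_[q] := (q : ℚ_[q]) ^ n with hc
  have hc0 : c ≠ 0 := pow_ne_zero n (Nat.cast_ne_zero.mpr (Fact.out : q.Prime).ne_zero)
  rw [Basis.unitsSMul_apply, Basis.unitsSMul_apply, Basis.repr_unitsSMul]
  simp only [Units.smul_def, Units.val_inv_eq_inv_val, Units.val_mk0]
  rw [smul_mul_smul_comm, map_smul, Finsupp.smul_apply, smul_eq_mul, smul_eq_mul, mul_assoc,
    inv_mul_cancel_left₀ hc0, norm_mul, norm_pow, Padic.norm_p]
  have hb : ‖b₀.repr (b₀ i * b₀ j) k‖ ≤ |C| + 1 :=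
    le_trans (hC (Finset.mem_image.mpr ⟨(i, j, k), Finset.mem_univ _, rfl⟩))
      (by linarith [le_abs_self C])
  calc ((q : ℝ)⁻¹) ^ n * ‖b₀.repr (b₀ i * b₀ j) k‖
      ≤ (qInv q / (|C| + 1)) * (|C| + 1) :=
        mul_le_mul hn.le hb (norm_nonneg _) (div_nonneg qInv_pos.le (by positivity))
    _ = qInv q := div_mul_cancel₀ _ (by positivity)

end Fermat.Agent.CFT.Local
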