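import Fermat.Agent.CFT.Local.Residue

/-!
# The order of the residue field and totally ramified fixed fields

`#k = q ^ resDeg E`; if `x` is fixed by `H` then `|H ⊓ inertia E|` divides the valuation of `x`.
-/

set_option autoImplicit false
set_option linter.style.haveILetI false

noncomputable section

namespace Fermat.Agent.CFT.Local

open Module

variable {q : ℕ} [Fact q.Prime] (E : IntermediateField ℚ_[q] (PadicAlgCl q))
  [FiniteDimensional ℚ_[q] E]

/-- The normalised valuation as an integer. -/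
def ordZ (x : Eˣ) : ℤ := Multiplicative.toAdd (ord E x)

theorem ordZ_mul (x y : Eˣ) : ordZ E (x * y) = ordZ E x + ordZ E y := by
  rw [ordZ, map_mul, toAdd_mul]; rfl

theorem ordZ_zpow (x : Eˣ) (n : ℤ) : ordZ E (x ^ n) = n * ordZ E x := by
  rw [ordZ, map_zpow, toAdd_zpow, smul_eq_mul]; rfl

theorem ordZ_pow (x : Eˣ) (n : ℕ) : ordZ E (x ^ n) = n * ordZ E x := by
  rw [← zpow_natCast, ordZ_zpow]

theorem norm_pow_eq_ordZ (x : Eˣ) :
    ‖(x : E)‖ ^ finrank ℚ_[q] E = (q : ℝ) ^ (-((resDeg E : ℤ) * ordZ E x)) := by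
  rw [norm_pow_eq, ordQFun_eq]; rfl

theorem norm_le_norm_iff (x y : Eˣ) : ‖(x : E)‖ ≤ ‖(y : E)‖ ↔ ordZ E y ≤ ordZ E x := by
  have hq : (1 : ℝ) < q := Nat.one_lt_cast.mpr (Fact.out : q.Prime).one_lt
  have hd : finrank ℚ_[q] E ≠ 0 := Module.finrank_pos.ne'
  rw [← pow_le_pow_iff_left₀ (norm_nonneg _) (norm_nonneg _) hd, norm_pow_eq_ordZ,
    norm_pow_eq_ordZ, zpow_le_zpow_iff_right₀ hq, neg_le_neg_iff]
  exact mul_le_mul_iff_of_pos_left (Int.natCast_pos.mpr (resDeg_pos E))

theorem norm_eq_norm_iff (x y : Eˣ) : ‖(x : E)‖ = ‖(y : E)‖ ↔ ordZ E x = ordZ E y := by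
  rw [le_antisymm_iff, norm_le_norm_iff, norm_le_norm_iff, le_antisymm_iff (a := ordZ E x), and_comm]

theorem ordZ_one : ordZ E 1 = 0 := by rw [ordZ, map_one, toAdd_one]

theorem ordZ_eq_zero_iff {x : Eˣ} : ordZ E x = 0 ↔ x ∈ unitGroup E := by
  rw [ordZ, toAdd_eq_zero, ord_eq_one_iff]

/-- The closed ball of radius `r`, for `r ≥ 0`. -/
def ballGroup (r : ℝ) (hr : 0 ≤ r) : AddSubgroup E where
  carrier := {x | ‖x‖ ≤ r}
  zero_mem' := by simpa using hr
  add_mem' {a b} ha hb := (IsUltrametricDist.norm_add_le_max a b).trans (max_le ha hb)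
  neg_mem' {a} ha := by simpa using ha

/-- `x O`. -/
def mulBall (x : E) : AddSubgroup E := ballGroup E ‖x‖ (norm_nonneg _)

omit [FiniteDimensional ℚ_[q] E] in
theorem map_mulLeft_mulBall (x y : E) :
    (mulBall E y).map (AddMonoidHom.mulLeft x) ≤ mulBall E (x * y) := by
  rintro _ ⟨z, hz, rfl⟩
  show ‖x * z‖ ≤ ‖x * y‖
  rw [norm_mul, norm_mul]
  exact mul_le_mul_of_nonneg_left hz (norm_nonneg _)

omit [FiniteDimensional ℚ_[q] E] in
theorem map_mulLeft_mulBall_eq {x : E} (hx : x ≠ 0) (y : E) :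
    (mulBall E y).map (AddMonoidHom.mulLeft x) = mulBall E (x * y) := by
  refine le_antisymm (map_mulLeft_mulBall E x y) fun z hz => ⟨x⁻¹ * z, ?_, ?_⟩
  · show ‖x⁻¹ * z‖ ≤ ‖y‖
    have hz' : ‖z‖ ≤ ‖x * y‖ := hz
    rw [norm_mul] at hz'
    rw [norm_mul, norm_inv, inv_mul_le_iff₀ (norm_pos_iff.mpr hx)]
    exact hz'
  · show x * (x⁻¹ * z) = z
    rw [mul_inv_cancel_left₀ hx]

theorem relIndex_mulBall_pow (π : Eˣ) (hπ : ordZ E π = 1) :
    ∀ n : ℕ, (mulBall E ((π : E) ^ n)).relIndex (mulBall E 1) = Nat.card (ResField E) ^ n := by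
  have h1 : ‖(π : E)‖ ≤ ‖(1 : E)‖ := by
    rw [← Units.val_one, norm_le_norm_iff, ordZ_one, hπ]; norm_num
  have hstep : (mulBall E (π : E)).relIndex (mulBall E 1) = Nat.card (ResField E) := by
    have hlt : ∀ z : E, ‖z‖ ≤ ‖(π : E)‖ ↔ ‖z‖ < 1 := fun z => by
      rcases eq_or_ne z 0 with rfl | hz
      · simp
      have hz1 := norm_le_norm_iff E (Units.mk0 z hz) π
      have hz2 := norm_le_norm_iff E 1 (Units.mk0 z hz)
      rw [Units.val_mk0, hπ] at hz1
      rw [Units.val_one, norm_one, Units.val_mk0, ordZ_one] at hz2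
      rw [hz1, ← not_le, hz2]
      omega
    have hball : mulBall E (1 : E) = (intRing E).toAddSubgroup := by
      ext z
      show ‖z‖ ≤ ‖(1 : E)‖ ↔ ‖z‖ ≤ 1
      rw [norm_one]
    rw [hball]
    have hsub : (mulBall E (π : E)).addSubgroupOf (intRing E).toAddSubgroup =
        (maxIdeal E).toAddSubgroup := by
      ext z
      exact hlt z.1
    rw [AddSubgroup.relIndex, hsub]
    rfl
  intro n
  induction n with
  | zero => simp
  | succ n ih =>
    have hle1 : mulBall E ((π : E) ^ (n + 1)) ≤ mulBall E (π : E) := fun z hz => by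
      refine le_trans (show ‖z‖ ≤ _ from hz) ?_
      rw [norm_pow, pow_succ]
      exact mul_le_of_le_one_left (norm_nonneg _)
        (pow_le_one₀ (norm_nonneg _) (by simpa using h1))
    have hle2 : mulBall E (π : E) ≤ mulBall E 1 := fun z hz =>
      le_trans (show ‖z‖ ≤ _ from hz) h1
    rw [← AddSubgroup.relIndex_mul_relIndex _ _ _ hle1 hle2, hstep]
    have e1 : mulBall E (π : E) = (mulBall E (1 : E)).map (AddMonoidHom.mulLeft (π : E)) := by
      rw [map_mulLeft_mulBall_eq E π.ne_zero, mul_one]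
    have e2 : mulBall E ((π : E) ^ (n + 1)) =
        (mulBall E ((π : E) ^ n)).map (AddMonoidHom.mulLeft (π : E)) := by
      rw [map_mulLeft_mulBall_eq E π.ne_zero, ← pow_succ']
    conv_lhs => arg 1; rw [e1, e2]
    rw [AddSubgroup.relIndex_map_map_of_injective _ _ (mul_right_injective₀ π.ne_zero), ih, pow_succ]

theorem relIndex_mulBall_natCast :
    (mulBall E (q : E)).relIndex (mulBall E 1) = q ^ finrank ℚ_[q] E := by
  classical
  obtain ⟨c, hc⟩ := exists_goodBasis_smul (Module.finBasis ℚ_[q] E)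
  set b := (Module.finBasis ℚ_[q] E).unitsSMul fun _ => c with hb
  set O := mulBall E (1 : E) with hO
  have hq0 : (q : E) ≠ 0 := Nat.cast_ne_zero.mpr (Fact.out : q.Prime).ne_zero
  have hLO : lat b 0 ≤ O := fun z hz => by
    show ‖z‖ ≤ ‖(1 : E)‖
    rw [norm_one]
    exact (GoodBasis.norm_lt_one hc hz).le
  -- `q L = L₁`
  have hqL : (lat b 0).map (AddMonoidHom.mulLeft (q : E)) = lat b 1 := by
    have hrepr : ∀ (z : E) (i), b.repr ((q : E) * z) i = (q : ℚ_[q]) * b.repr z i := fun z i => by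
      rw [← map_natCast (algebraMap ℚ_[q] E) q, ← Algebra.smul_def, map_smul, Finsupp.smul_apply,
        smul_eq_mul]
    have hn : ‖(q : ℚ_[q])‖ = qInv q := Padic.norm_p
    ext z
    constructor
    · rintro ⟨w, hw, rfl⟩ i
      show ‖b.repr ((q : E) * w) i‖ ≤ qInv q ^ 1
      rw [hrepr, norm_mul, hn, pow_one]
      exact mul_le_of_le_one_right qInv_pos.le (by simpa using hw i)
    · intro hz
      refine ⟨(q : E)⁻¹ * z, fun i => ?_, mul_inv_cancel_left₀ hq0 z⟩
      have := hz i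
      rw [← mul_inv_cancel_left₀ hq0 z, hrepr, norm_mul, hn, pow_one] at this
      rw [pow_zero]
      exact (mul_le_iff_le_one_right qInv_pos).mp this
  -- `[L : L₁] = q ^ d`
  have hL : (lat b 1).relIndex (lat b 0) = q ^ finrank ℚ_[q] E := by
    rw [relIndex_lat_one, Fintype.card_fin]
  -- `[O : L]` is finite
  have hfin : (lat b 0).relIndex O ≠ 0 := by
    have hOc : IsCompact (O : Set E) := by
      rw [show (O : Set E) = Metric.closedBall 0 1 from Set.ext fun z => by
        show ‖z‖ ≤ ‖(1 : E)‖ ↔ _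
        rw [norm_one, mem_closedBall_zero_iff]]
      exact isCompact_closedBall (0 : E) 1
    have : CompactSpace O := isCompact_iff_compactSpace.mp hOc
    haveI := AddSubgroup.quotient_finite_of_isOpen ((lat b 0).addSubgroupOf O)
      ((AddSubgroup.isOpen_of_mem_nhds _ (lat_mem_nhds_zero b 0)).preimage continuous_subtype_val)
    exact AddSubgroup.index_ne_zero_of_finite
  have hmap : mulBall E (q : E) = O.map (AddMonoidHom.mulLeft (q : E)) := by
    rw [hO, map_mulLeft_mulBall_eq E hq0, mul_one]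
  have hle1 : lat b 1 ≤ mulBall E (q : E) := by
    rw [hmap, ← hqL]; exact AddSubgroup.map_mono hLO
  have hle2 : mulBall E (q : E) ≤ O := fun z hz => by
    refine le_trans (show ‖z‖ ≤ _ from hz) ?_
    rw [norm_one]
    exact (norm_natCast_self_lt_one E).le
  have hkey : (lat b 1).relIndex (lat b 0) * (lat b 0).relIndex O =
      (lat b 1).relIndex (mulBall E (q : E)) * (mulBall E (q : E)).relIndex O := by
    rw [AddSubgroup.relIndex_mul_relIndex _ _ _ (lat_anti b zero_le_one) hLO,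
      AddSubgroup.relIndex_mul_relIndex _ _ _ hle1 hle2]
  have hsame : (lat b 1).relIndex (mulBall E (q : E)) = (lat b 0).relIndex O := by
    rw [hmap, ← hqL]
    exact AddSubgroup.relIndex_map_map_of_injective _ _ (mul_right_injective₀ hq0)
  rw [hL, hsame, mul_comm ((lat b 0).relIndex O)] at hkey
  exact (Nat.eq_of_mul_eq_mul_right (Nat.pos_of_ne_zero hfin) hkey).symm

/-- The residue field has `q ^ resDeg E` elements. -/
theorem card_resField : Nat.card (ResField E) = q ^ resDeg E := by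
  have hq0 : (q : E) ≠ 0 := Nat.cast_ne_zero.mpr (Fact.out : q.Prime).ne_zero
  obtain ⟨π, hπ'⟩ := ord_surjective E (Multiplicative.ofAdd 1)
  have hπ : ordZ E π = 1 := by rw [ordZ, hπ']; rfl
  have hfe : (resDeg E : ℤ) * ordZ E (Units.mk0 (q : E) hq0) = finrank ℚ_[q] E := by
    have h := ordQFun_eq E (Units.mk0 (q : E) hq0)
    have h' : ordQFun E (Units.mk0 (q : E) hq0) = (finrank ℚ_[q] E : ℤ) :=
      congrArg Multiplicative.toAdd (ordQ_natCast_self E)
    rw [h'] at h
    exact h.symm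
  obtain ⟨e, he⟩ : ∃ e : ℕ, ordZ E (Units.mk0 (q : E) hq0) = e := by
    refine Int.eq_ofNat_of_zero_le (le_of_mul_le_mul_left ?_
      (Int.natCast_pos.mpr (resDeg_pos E)))
    rw [hfe, mul_zero]; exact Int.natCast_nonneg _
  rw [he] at hfe
  have hfe' : resDeg E * e = finrank ℚ_[q] E := by exact_mod_cast hfe
  have he0 : e ≠ 0 := fun h => by
    rw [h, mul_zero] at hfe'
    exact (Module.finrank_pos (R := ℚ_[q]) (M := E)).ne hfe'
  have hsame : mulBall E (q : E) = mulBall E ((π : E) ^ e) := by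
    have : ‖(q : E)‖ = ‖(π : E) ^ e‖ := by
      rw [← Units.val_pow_eq_pow_val]
      exact (norm_eq_norm_iff E (Units.mk0 (q : E) hq0) (π ^ e)).mpr (by
        rw [he, ordZ_pow, hπ, mul_one])
    ext z
    show ‖z‖ ≤ ‖(q : E)‖ ↔ ‖z‖ ≤ ‖(π : E) ^ e‖
    rw [this]
  have h := relIndex_mulBall_pow E π hπ e
  rw [← hsame, relIndex_mulBall_natCast, ← hfe', pow_mul] at h
  exact (Nat.pow_left_injective he0 h).symm

end Fermat.Agent.CFT.Local
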